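import Fermat.Agent.HuaThreeSquares.Main
import Mathlib.NumberTheory.Chebyshev

/-!
# The density of the sums of three squares of primes

Primes above `5` give admissible sums only, the sums with a prime in `{2, 3, 5}` are `O (N / log² N)`
in number, and the admissible numbers have density `1 / 30`.
-/

set_option autoImplicit false

noncomputable section

namespace FA.HuaThreeSquares

open Finset Filter Topology

theorem sq_mod_of_prime_gt {p : ℕ} (hp : p.Prime) (h5 : 5 < p) :
    p ^ 2 % 24 = 1 ∧ (p ^ 2 % 5 = 1 ∨ p ^ 2 % 5 = 4) := by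
  have hd : ∀ d, d.Prime → d < p → p % d ≠ 0 := fun d hd hlt h =>
    absurd ((Nat.prime_dvd_prime_iff_eq hd hp).1 (Nat.dvd_of_mod_eq_zero h)) hlt.ne
  have h2 := hd 2 Nat.prime_two (by omega)
  have h3 := hd 3 Nat.prime_three (by omega)
  have h5' := hd 5 (by norm_num) h5
  refine ⟨?_, ?_⟩
  · rw [Nat.pow_mod]
    have : p % 24 = 1 ∨ p % 24 = 5 ∨ p % 24 = 7 ∨ p % 24 = 11 ∨ p % 24 = 13 ∨ p % 24 = 17 ∨
        p % 24 = 19 ∨ p % 24 = 23 := by omega
    rcases this with e | e | e | e | e | e | e | e <;> rw [e]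
  · rw [Nat.pow_mod]
    have : p % 5 = 1 ∨ p % 5 = 2 ∨ p % 5 = 3 ∨ p % 5 = 4 := by omega
    rcases this with e | e | e | e <;> rw [e] <;> norm_num

/-- **The congruence conditions are necessary.** -/
theorem isAdmissible_of_three_prime_squares {p q r : ℕ} (hp : p.Prime) (hq : q.Prime)
    (hr : r.Prime) (hp5 : 5 < p) (hq5 : 5 < q) (hr5 : 5 < r) :
    IsAdmissible (p ^ 2 + q ^ 2 + r ^ 2) := by
  obtain ⟨a1, a2⟩ := sq_mod_of_prime_gt hp hp5
  obtain ⟨b1, b2⟩ := sq_mod_of_prime_gt hq hq5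
  obtain ⟨c1, c2⟩ := sq_mod_of_prime_gt hr hr5
  unfold IsAdmissible
  omega

theorem admissible_classes {n : ℕ} (hn : IsAdmissible n) :
    n % 120 = 3 ∨ n % 120 = 27 ∨ n % 120 = 51 ∨ n % 120 = 99 := by
  obtain ⟨h1, h2⟩ := hn
  omega

open Classical in
theorem card_admissible_bounds (N : ℕ) :
    4 * (N / 120) ≤ ((Ioc 0 N).filter IsAdmissible).card ∧
      ((Ioc 0 N).filter IsAdmissible).card ≤ 4 * (N / 120 + 1) := by
  refine ⟨le_trans (le_of_eq (card_range _).symm) (card_le_card_of_injOn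
      (fun j => 120 * (j / 4) + 24 * (j % 4 + j % 4 / 3) + 3) (fun j hj => ?_) fun i _ j _ e => ?_),
    (card_le_card_of_injOn (fun n => 4 * (n / 120) + (n % 120 / 24 - n % 120 / 96))
      (fun n hn => ?_) fun i hi j hj e => ?_).trans (le_of_eq (card_range _))⟩
  · simp only [mem_coe, mem_range, mem_filter, mem_Ioc, IsAdmissible] at hj ⊢
    rcases (show j % 4 = 0 ∨ j % 4 = 1 ∨ j % 4 = 2 ∨ j % 4 = 3 by omega) with h | h | h | h <;>
      rw [h] <;> omega
  · simp only at e
    omega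
  · simp only [mem_coe, mem_filter, mem_Ioc, mem_range] at hn ⊢
    rcases admissible_classes hn.2 with h | h | h | h <;> rw [h] <;> omega
  · simp only [mem_coe, mem_filter] at hi hj e
    rcases admissible_classes hi.2 with h | h | h | h <;>
      rcases admissible_classes hj.2 with h' | h' | h' | h' <;>
        (rw [h, h'] at e; omega)

open Classical in
/-- A sum outside the admissible classes uses one of `2`, `3`, `5`. -/
theorem card_three_prime_squares_not_admissible_le (N : ℕ) :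
    ((Ioc 0 N).filter fun n => IsThreePrimeSquares n ∧ ¬IsAdmissible n).card ≤
      3 * Nat.primeCounting (Nat.sqrt N) ^ 2 := by
  obtain ⟨S, hS⟩ : ∃ S, S = Nat.primesLE (Nat.sqrt N) := ⟨_, rfl⟩
  have hsub : ((Ioc 0 N).filter fun n => IsThreePrimeSquares n ∧ ¬IsAdmissible n) ⊆
      (({2, 3, 5} : Finset ℕ) ×ˢ (S ×ˢ S)).image
        (fun a => a.1 ^ 2 + a.2.1 ^ 2 + a.2.2 ^ 2) := by
    intro n hn
    rw [mem_filter, mem_Ioc] at hn
    obtain ⟨⟨-, hnN⟩, ⟨p, q, r, hp, hq, hr, e⟩, hna⟩ := hn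
    have hmem : ∀ x : ℕ, x.Prime → x ^ 2 ≤ n → x ∈ S := fun x hx hxn => by
      rw [hS, Nat.mem_primesLE]
      exact ⟨Nat.le_sqrt'.2 (hxn.trans hnN), hx⟩
    have hsmall : ∀ x : ℕ, x.Prime → x ≤ 5 → x ∈ ({2, 3, 5} : Finset ℕ) := fun x hx hx5 => by
      have := hx.two_le
      interval_cases x <;> first | exact absurd hx (by decide) | simp
    simp only [mem_image, mem_product]
    rcases le_or_gt p 5 with h | hp5
    · exact ⟨(p, q, r), ⟨hsmall p hp h, hmem q hq (by omega), hmem r hr (by omega)⟩, e⟩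
    rcases le_or_gt q 5 with h | hq5
    · exact ⟨(q, p, r), ⟨hsmall q hq h, hmem p hp (by omega), hmem r hr (by omega)⟩,
        by simp only; omega⟩
    rcases le_or_gt r 5 with h | hr5
    · exact ⟨(r, p, q), ⟨hsmall r hr h, hmem p hp (by omega), hmem q hq (by omega)⟩,
        by simp only; omega⟩
    exact absurd (e ▸ isAdmissible_of_three_prime_squares hp hq hr hp5 hq5 hr5) hna
  refine (card_le_card hsub).trans (card_image_le.trans (le_of_eq ?_))
  rw [card_product, card_product, hS, Nat.primesLE_card_eq_primeCounting, sq]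
  rfl

open Classical in
/-- **The sums of three squares of primes have density `1 / 30`.** -/
theorem tendsto_three_prime_squares_density : Tendsto (fun N : ℕ =>
    (((Ioc 0 N).filter IsThreePrimeSquares).card : ℝ) / N) atTop (𝓝 (1 / 30)) := by
  refine Metric.tendsto_atTop.2 fun ε hε => ?_
  have hsqrt : Tendsto (fun N : ℕ => Nat.sqrt N) atTop atTop :=
    tendsto_atTop_atTop.2 fun b => ⟨b ^ 2, fun N hN => Nat.le_sqrt'.2 hN⟩
  have hpi := hsqrt.eventually
    (((Chebyshev.eventually_primeCounting_le one_pos).natCast_atTop).and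
      ((Real.tendsto_log_atTop.comp tendsto_natCast_atTop_atTop).eventually_ge_atTop
        (max 1 (81 * 4 / ε))))
  obtain ⟨N₁, h⟩ := eventually_atTop.1 (((eventually_exceptions_le (show 0 < ε / 4 by positivity)).and
    hpi).and (eventually_ge_atTop ⌈16 / ε⌉₊))
  refine ⟨N₁ + 1, fun N hN => ?_⟩
  obtain ⟨⟨hexc, hpi, hlog⟩, hNε⟩ := h N (by omega)
  have hN0 : (0 : ℝ) < N := Nat.cast_pos.2 (by omega)
  obtain ⟨P, hP⟩ : ∃ P, P = Nat.sqrt N := ⟨_, rfl⟩
  simp only [← hP, Nat.floor_natCast, Function.comp_apply, max_le_iff] at hpi hlog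
  obtain ⟨l, hl⟩ : ∃ l, l = Real.log (P : ℝ) := ⟨_, rfl⟩
  rw [← hl] at hpi hlog
  have hl0 : 0 < l := by linarith
  have hsmall : (((Ioc 0 N).filter fun n => IsThreePrimeSquares n ∧ ¬IsAdmissible n).card : ℝ) ≤
      ε / 4 * N := by
    refine (Nat.cast_le.2 (card_three_prime_squares_not_admissible_le N)).trans ?_
    push_cast
    rw [← hP]
    have h3 : (Nat.primeCounting P : ℝ) * l ≤ 3 * P := by
      rw [le_div_iff₀ hl0] at hpi
      refine hpi.trans (mul_le_mul_of_nonneg_right ?_ (Nat.cast_nonneg P))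
      rw [show (4 : ℝ) = 2 ^ 2 by norm_num, Real.log_pow]
      push_cast
      linarith [Real.log_two_lt_d9]
    have h4 := mul_le_mul h3 h3 (by positivity) (by positivity)
    have h5 : (P : ℝ) ^ 2 ≤ N := by exact_mod_cast hP ▸ Nat.sqrt_le' N
    have h6 := hlog.2
    rw [div_le_iff₀ hε] at h6
    have h7 : l ≤ l * l := le_mul_of_one_le_left hl0.le hlog.1
    refine le_of_mul_le_mul_right ?_ (mul_pos hl0 hl0)
    nlinarith [mul_le_mul_of_nonneg_left h7 (mul_nonneg hε.le hN0.le),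
      mul_le_mul_of_nonneg_right h6 hN0.le]
  obtain ⟨hlo, hhi⟩ := card_admissible_bounds N
  have h1 : ((Ioc 0 N).filter IsAdmissible).card ≤ ((Ioc 0 N).filter IsThreePrimeSquares).card +
      ((Ioc 0 N).filter fun n => IsAdmissible n ∧ ¬IsThreePrimeSquares n).card := by
    refine (card_le_card fun n hn => ?_).trans (card_union_le _ _)
    simp only [mem_filter, mem_union] at hn ⊢
    tauto
  have h2 : ((Ioc 0 N).filter IsThreePrimeSquares).card ≤ ((Ioc 0 N).filter IsAdmissible).card +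
      ((Ioc 0 N).filter fun n => IsThreePrimeSquares n ∧ ¬IsAdmissible n).card := by
    refine (card_le_card fun n hn => ?_).trans (card_union_le _ _)
    simp only [mem_filter, mem_union] at hn ⊢
    tauto
  have a1 : ((N : ℝ) - 120) / 30 ≤ ((4 * (N / 120) : ℕ) : ℝ) := by
    have h : N ≤ 120 * (N / 120) + 120 := by omega
    have h' : (N : ℝ) ≤ 120 * ((N / 120 : ℕ) : ℝ) + 120 := by exact_mod_cast h
    push_cast
    linarith
  have a2 : ((4 * (N / 120 + 1) : ℕ) : ℝ) ≤ ((N : ℝ) + 120) / 30 := by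
    have h' : 120 * ((N / 120 : ℕ) : ℝ) ≤ (N : ℝ) := by exact_mod_cast Nat.mul_div_le N 120
    push_cast
    linarith
  have b1 := a1.trans ((Nat.cast_le.2 (hlo.trans h1)).trans (le_of_eq (Nat.cast_add _ _)))
  have b2 := (Nat.cast_le.2 h2).trans ((le_of_eq (Nat.cast_add _ _)).trans
    (add_le_add ((Nat.cast_le.2 hhi).trans a2) hsmall))
  have h16 : 16 / ε ≤ N := (Nat.le_ceil _).trans (Nat.cast_le.2 hNε)
  rw [div_le_iff₀ hε] at h16
  rw [Real.dist_eq, div_sub' hN0.ne', abs_div, abs_of_pos hN0, div_lt_iff₀ hN0, abs_lt]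
  constructor <;> linarith

end FA.HuaThreeSquares
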