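import Fermat.Agent.HuaSquares.Singular
import Mathlib.NumberTheory.GaussSum
import Mathlib.NumberTheory.LegendreSymbol.QuadraticChar.Basic

/-!
# The local factors of three squares of primes

`C_p (a) = (a/p) g - 1` with the quadratic Gauss sum `g`, so `|A_p (n)| ≤ 64 / p`. For
`n ≡ 3 (mod 24)` prime to `5` the factors are `8` at `2`, `3` at `3` and positive elsewhere: every
residue modulo `p ≥ 7`, and every nonzero one modulo `5`, is a sum of three nonzero squares.
-/

set_option autoImplicit false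

noncomputable section

namespace FA.HuaThreeSquares

open Finset FA.ThreePrimes FA.HuaSquares

/-- `n ≡ 3 (mod 24)`, `5 ∤ n`. -/
def IsAdmissible (n : ℕ) : Prop := n % 24 = 3 ∧ n % 5 ≠ 0

/-- The summand of `A_q (n)`. -/
def threeSummand (n q r : ℕ) : ℂ := primeFactor q r ^ 3 * eAdd (-((n : ℝ) * r / q))

/-- `A_q (n)` for three squares. -/
def threeTerm (n q : ℕ) : ℂ := ∑ r ∈ unitResidues q, threeSummand n q r

theorem threeTerm_zero (n : ℕ) : threeTerm n 0 = 0 := by simp [threeTerm, unitResidues]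

theorem threeTerm_one (n : ℕ) : threeTerm n 1 = 1 := by
  simp [threeTerm, threeSummand, unitResidues, primeFactor, primeSquareSum,
    show ∀ x : ℝ, x * 0 = 0 from mul_zero]

theorem threeTerm_mul (n : ℕ) {a b : ℕ} (h : a.Coprime b) :
    threeTerm n (a * b) = threeTerm n a * threeTerm n b := by
  classical
  rcases Nat.eq_zero_or_pos a with rfl | ha
  · simp [threeTerm, unitResidues]
  rcases Nat.eq_zero_or_pos b with rfl | hb
  · simp [threeTerm, unitResidues]
  obtain ⟨hinj, himg⟩ := crtResidue_bijOn h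
  rw [threeTerm, threeTerm, threeTerm, ← himg, sum_image hinj, sum_mul_sum, ← sum_product']
  refine sum_congr rfl fun z _ => ?_
  have e := eAdd_crt_split ha hb z.1 z.2 (-(n : ℤ))
  push_cast at e
  rw [threeSummand, threeSummand, threeSummand, primeFactor_crt h ha hb, mul_pow,
    show -((n : ℝ) * (WaringAsymptotic.crtResidue a b z.1 z.2 : ℕ) / (a * b : ℕ)) =
      -(n : ℝ) * (WaringAsymptotic.crtResidue a b z.1 z.2 : ℕ) / ((a : ℝ) * b) by push_cast; ring,
    e, show -((n : ℝ) * z.1 / a) = -(n : ℝ) * z.1 / a by ring,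
    show -((n : ℝ) * z.2 / b) = -(n : ℝ) * z.2 / b by ring]
  ring

theorem threeTerm_primePow_eq_zero (n : ℕ) {p l : ℕ} (hp : p.Prime) (hl : 2 ≤ l)
    (h2 : p ≠ 2 ∨ 4 ≤ l) : threeTerm n (p ^ l) = 0 := by
  refine sum_eq_zero fun r hr => ?_
  rw [unitResidues, mem_filter] at hr
  rw [threeSummand, primeFactor, primeSquareSum_primePow hp hl h2 (a := (r : ℤ))
    (by rw [Int.cast_natCast]; exact (ZMod.isUnit_iff_coprime r _).2 hr.2.symm)]
  simp

/-! ### The Gauss sum -/

/-- The quadratic character with complex values. -/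
def legendreC (p : ℕ) [Fact p.Prime] : MulChar (ZMod p) ℂ :=
  (quadraticChar (ZMod p)).ringHomComp (Int.castRingHom ℂ)

theorem isQuadratic_legendreC (p : ℕ) [Fact p.Prime] : (legendreC p).IsQuadratic :=
  (quadraticChar_isQuadratic (ZMod p)).comp _

theorem sum_units_eq_sub {p : ℕ} [Fact p.Prime] (f : ZMod p → ℂ) :
    ∑ u : (ZMod p)ˣ, f u = ∑ x, f x - f 0 := by
  have hinj : Function.Injective fun u : (ZMod p)ˣ => (u : ZMod p) := Units.val_injective
  rw [← sum_image (s := (univ : Finset (ZMod p)ˣ)) (g := fun u => (u : ZMod p)) hinj.injOn,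
    ← sum_erase_add univ f (mem_univ (0 : ZMod p)), add_sub_cancel_right]
  refine sum_congr (ext fun x => ?_) fun _ _ => rfl
  simp only [mem_image, mem_univ, true_and, mem_erase, and_true]
  exact ⟨fun ⟨u, hu⟩ => hu ▸ u.ne_zero, fun hx => ⟨Units.mk0 x hx, rfl⟩⟩

theorem ringChar_zmod_ne_two {p : ℕ} [Fact p.Prime] (hp2 : p ≠ 2) : ringChar (ZMod p) ≠ 2 := by
  rw [ZMod.ringChar_zmod_n]
  exact hp2

/-- `C_p (a) = (a/p) g - 1`. -/
theorem primeSquareSum_prime_eq {p : ℕ} [Fact p.Prime] (hp2 : p ≠ 2) {a : ℤ}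
    (ha : IsUnit (a : ZMod p)) : primeSquareSum p a =
      legendreC p (a : ZMod p) * gaussSum (legendreC p) ZMod.stdAddChar - 1 := by
  classical
  rw [primeSquareSum_eq, sum_units_eq_sub fun x => ZMod.stdAddChar ((a : ZMod p) * x ^ 2),
    zero_pow two_ne_zero, mul_zero, AddChar.map_zero_eq_one, sub_left_inj]
  have hcard : ∀ y : ZMod p, (((univ.filter fun x : ZMod p => x ^ 2 = y).card : ℕ) : ℂ) =
      legendreC p y + 1 := fun y => by
    have h := quadraticChar_card_sqrts (ringChar_zmod_ne_two hp2) y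
    rw [Set.toFinset_ofPred] at h
    have h2 := congrArg (Int.cast : ℤ → ℂ) h
    push_cast at h2
    rw [legendreC, MulChar.ringHomComp_apply]
    simpa using h2
  rw [← sum_fiberwise (g := fun x : ZMod p => x ^ 2)]
  rw [sum_congr rfl fun y _ => show ∑ x ∈ univ.filter (fun x : ZMod p => x ^ 2 = y),
      ZMod.stdAddChar ((a : ZMod p) * x ^ 2) =
        (legendreC p y + 1) * ZMod.stdAddChar ((a : ZMod p) * y) by
    rw [sum_congr rfl fun x hx => by rw [(mem_filter.1 hx).2], sum_const, nsmul_eq_mul, hcard]]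
  simp only [add_mul, one_mul, sum_add_distrib]
  rw [show (∑ y : ZMod p, ZMod.stdAddChar ((a : ZMod p) * y) : ℂ) = 0 by
    have h := AddChar.sum_mulShift (a : ZMod p) (ZMod.isPrimitive_stdAddChar p)
    rw [if_neg ha.ne_zero, Nat.cast_zero] at h
    rw [← h]
    exact sum_congr rfl fun y _ => by rw [mul_comm], add_zero]
  have h := gaussSum_mulShift_eq (legendreC p) ZMod.stdAddChar ha.unit
  rw [(isQuadratic_legendreC p).inv, IsUnit.unit_spec] at h
  rw [← h, gaussSum]
  rfl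

theorem norm_gaussSum_legendreC {p : ℕ} [Fact p.Prime] (hp2 : p ≠ 2) :
    ‖gaussSum (legendreC p) ZMod.stdAddChar‖ = √(p : ℝ) := by
  have hne : legendreC p ≠ 1 := (MulChar.ringHomComp_ne_one_iff Int.cast_injective).2
    (quadraticChar_ne_one (ringChar_zmod_ne_two hp2))
  have hq : (legendreC p).IsQuadratic := isQuadratic_legendreC p
  have h := gaussSum_sq hne hq (ZMod.isPrimitive_stdAddChar p)
  have h1 : ‖legendreC p (-1)‖ = 1 := by
    rcases hq (-1) with e | e | e
    · exact absurd e ((isUnit_one.neg.map (legendreC p)).ne_zero)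
    · rw [e, norm_one]
    · rw [e, norm_neg, norm_one]
  have h2 := congrArg norm h
  rw [norm_pow, norm_mul, h1, one_mul, ZMod.card, Complex.norm_natCast] at h2
  rw [← h2, Real.sqrt_sq (norm_nonneg _)]

theorem norm_legendre_shift_le {p : ℕ} [Fact p.Prime] (hp2 : p ≠ 2) (b : ZMod p) :
    ‖∑ x : ZMod p, legendreC p x * ZMod.stdAddChar (b * x)‖ ≤ √(p : ℝ) := by
  have hne : legendreC p ≠ 1 := (MulChar.ringHomComp_ne_one_iff Int.cast_injective).2
    (quadraticChar_ne_one (ringChar_zmod_ne_two hp2))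
  rcases eq_or_ne b 0 with rfl | hb
  · simp only [zero_mul, AddChar.map_zero_eq_one, mul_one, MulChar.sum_eq_zero_of_ne_one hne,
      norm_zero]
    exact Real.sqrt_nonneg _
  · have h := gaussSum_mulShift_eq (legendreC p) ZMod.stdAddChar (Units.mk0 b hb)
    rw [gaussSum] at h
    simp only [Units.val_mk0, AddChar.mulShift_apply] at h
    rw [h, norm_mul, norm_gaussSum_legendreC hp2, (isQuadratic_legendreC p).inv]
    refine mul_le_of_le_one_left (Real.sqrt_nonneg _) ?_
    rcases isQuadratic_legendreC p b with e | e | e <;> simp [e]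

/-- **`A_p (n) = O (1 / p)`.** -/
theorem norm_threeTerm_prime_le {p : ℕ} (hp : p.Prime) (hp2 : p ≠ 2) (n : ℕ) :
    ‖threeTerm n p‖ ≤ 64 / (p : ℝ) := by
  have : Fact p.Prime := ⟨hp⟩
  obtain ⟨g, hg⟩ : ∃ g, g = gaussSum (legendreC p) ZMod.stdAddChar := ⟨_, rfl⟩
  obtain ⟨b, hb⟩ : ∃ b : ZMod p, b = -((n : ℕ) : ZMod p) := ⟨_, rfl⟩
  have hgn : ‖g‖ = √(p : ℝ) := hg ▸ norm_gaussSum_legendreC hp2
  have hterm : threeTerm n p = ((g ^ 3 + 3 * g) *
      ∑ x : ZMod p, legendreC p x * ZMod.stdAddChar (b * x) -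
        (3 * g ^ 2 + 1) * (∑ x : ZMod p, ZMod.stdAddChar (b * x) - 1)) /
          (p.totient : ℂ) ^ 3 := by
    rw [show (∑ x : ZMod p, ZMod.stdAddChar (b * x) : ℂ) - 1 =
      ∑ u : (ZMod p)ˣ, ZMod.stdAddChar (b * (u : ZMod p)) by
        rw [sum_units_eq_sub fun x => ZMod.stdAddChar (b * x), mul_zero, AddChar.map_zero_eq_one],
      show ∑ x : ZMod p, legendreC p x * ZMod.stdAddChar (b * x) =
        ∑ u : (ZMod p)ˣ, legendreC p (u : ZMod p) * ZMod.stdAddChar (b * (u : ZMod p)) by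
          rw [sum_units_eq_sub fun x => legendreC p x * ZMod.stdAddChar (b * x),
            (legendreC p).map_zero, zero_mul, sub_zero],
      mul_sum, mul_sum, ← sum_sub_distrib, ← sum_unitResidues_eq_units fun x : ZMod p =>
        (g ^ 3 + 3 * g) * (legendreC p x * ZMod.stdAddChar (b * x)) -
          (3 * g ^ 2 + 1) * ZMod.stdAddChar (b * x), threeTerm, sum_div]
    refine sum_congr rfl fun r hr => ?_
    have hu : IsUnit (((r : ℕ) : ℤ) : ZMod p) := by
      rw [unitResidues, mem_filter] at hr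
      rw [Int.cast_natCast]
      exact (ZMod.isUnit_iff_coprime r p).2 hr.2.symm
    have hsq : legendreC p (r : ZMod p) ^ 2 = 1 := by
      rw [Int.cast_natCast] at hu
      rw [← MulChar.pow_apply' _ two_ne_zero,
        (isQuadratic_legendreC p).sq_eq_one,
        MulChar.one_apply hu]
    have he : eAdd (-((n : ℝ) * r / p)) = ZMod.stdAddChar (b * (r : ZMod p)) := by
      have h := WaringAsymptotic.eAdd_div_eq_char (q := p) (-((n : ℤ) * r))
      push_cast at h
      rw [hb, neg_mul, ← h, neg_div]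
    rw [threeSummand, primeFactor, primeSquareSum_prime_eq hp2 hu, ← hg, he, Int.cast_natCast,
      div_pow, div_mul_eq_mul_div]
    congr 1
    linear_combination (legendreC p (r : ZMod p) * g ^ 3 - 3 * g ^ 2) *
      ZMod.stdAddChar (b * (r : ZMod p)) * hsq
  rw [hterm, norm_div, norm_pow, Complex.norm_natCast, Nat.totient_prime hp]
  have hp3 : (3 : ℝ) ≤ p := by
    have := hp.two_le
    exact_mod_cast (show 3 ≤ p by omega)
  have hs := Real.mul_self_sqrt (show (0 : ℝ) ≤ p by linarith)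
  have h1 : ‖g ^ 3 + 3 * g‖ * ‖∑ x : ZMod p, legendreC p x * ZMod.stdAddChar (b * x)‖ ≤
      (p : ℝ) ^ 2 + 3 * p := by
    refine (mul_le_mul ((norm_add_le _ _).trans (le_of_eq ?_)) (norm_legendre_shift_le hp2 b)
      (norm_nonneg _) (by positivity : (0 : ℝ) ≤ √(p : ℝ) ^ 3 + 3 * √(p : ℝ))).trans (le_of_eq ?_)
    · rw [norm_pow, norm_mul, hgn, Complex.norm_ofNat]
    · linear_combination ((√(p : ℝ)) ^ 2 + p + 3) * hs
  have h2 : ‖3 * g ^ 2 + 1‖ * ‖(∑ x : ZMod p, ZMod.stdAddChar (b * x) : ℂ) - 1‖ ≤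
      (3 * p + 1) * (p + 1) := by
    refine mul_le_mul ((norm_add_le _ _).trans (le_of_eq ?_)) ?_ (norm_nonneg _) (by positivity)
    · rw [norm_mul, norm_pow, hgn, Complex.norm_ofNat, norm_one, Real.sq_sqrt (by linarith)]
    · refine (norm_sub_le _ _).trans (add_le_add ((norm_sum_le _ _).trans (le_of_eq ?_))
        (le_of_eq norm_one))
      simp [AddChar.norm_apply]
  have hnum : ‖(g ^ 3 + 3 * g) * ∑ x : ZMod p, legendreC p x * ZMod.stdAddChar (b * x) -
      (3 * g ^ 2 + 1) * ((∑ x : ZMod p, ZMod.stdAddChar (b * x) : ℂ) - 1)‖ ≤ 8 * (p : ℝ) ^ 2 := by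
    refine (norm_sub_le _ _).trans ?_
    rw [norm_mul, norm_mul]
    nlinarith
  refine (div_le_div_of_nonneg_right hnum (by positivity)).trans ?_
  rw [Nat.cast_sub hp.one_le, Nat.cast_one, div_le_div_iff₀ (pow_pos (by linarith) 3) (by linarith)]
  have h3 : ((p : ℝ) / 2) ^ 3 ≤ ((p : ℝ) - 1) ^ 3 :=
    pow_le_pow_left₀ (by linarith) (by linarith) 3
  linarith

/-! ### Positivity -/

theorem exists_three_squares_mod_five : ∀ n : ZMod 5, n ≠ 0 → ∃ x y z : ZMod 5,
    x ≠ 0 ∧ y ≠ 0 ∧ z ≠ 0 ∧ x ^ 2 + y ^ 2 + z ^ 2 = n := by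
  decide

theorem exists_three_squares {p : ℕ} (hp : p.Prime) (h5 : 5 ≤ p) (n : ZMod p)
    (hn : p = 5 → n ≠ 0) :
    ∃ x y z : ZMod p, x ≠ 0 ∧ y ≠ 0 ∧ z ≠ 0 ∧ x ^ 2 + y ^ 2 + z ^ 2 = n := by
  have : Fact p.Prime := ⟨hp⟩
  rcases eq_or_ne p 5 with rfl | hne
  · exact exists_three_squares_mod_five n (hn rfl)
  have hsmall : ∀ m : ℕ, 0 < m → m < p → ((m : ℕ) : ZMod p) ≠ 0 := fun m h1 h2 h => by
    rw [ZMod.natCast_eq_zero_iff] at h
    exact absurd (Nat.le_of_dvd h1 h) (by omega)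
  have h7 : 7 ≤ p := by
    by_contra h
    have h6 : p = 6 := by omega
    exact absurd (h6 ▸ hp) (by decide)
  have n2 : (2 : ZMod p) ≠ 0 := by exact_mod_cast hsmall 2 (by norm_num) (by omega)
  have n3 : (3 : ZMod p) ≠ 0 := by exact_mod_cast hsmall 3 (by norm_num) (by omega)
  have n4 : (4 : ZMod p) ≠ 0 := by exact_mod_cast hsmall 4 (by norm_num) (by omega)
  have n5 : (5 : ZMod p) ≠ 0 := by exact_mod_cast hsmall 5 (by norm_num) (by omega)
  obtain ⟨u, hu, hm⟩ : ∃ u : ZMod p, u ≠ 0 ∧ n - u ^ 2 ≠ 0 := by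
    by_cases h : n - 1 ^ 2 = 0
    · exact ⟨2, n2, fun h' => n3 (by linear_combination h - h')⟩
    · exact ⟨1, one_ne_zero, h⟩
  obtain ⟨x, y, hxy⟩ := ZMod.sq_add_sq p (n - u ^ 2)
  obtain ⟨v, w, hv, hw, hvw⟩ : ∃ v w : ZMod p, v ≠ 0 ∧ w ≠ 0 ∧ v ^ 2 + w ^ 2 = n - u ^ 2 := by
    by_cases hx : x = 0
    · have hy : y ≠ 0 := fun h => hm (by rw [← hxy, hx, h]; ring)
      refine ⟨3 / 5 * y, 4 / 5 * y, mul_ne_zero (div_ne_zero n3 n5) hy,
        mul_ne_zero (div_ne_zero n4 n5) hy, ?_⟩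
      rw [← hxy, hx]
      field_simp
      ring
    by_cases hy : y = 0
    · refine ⟨3 / 5 * x, 4 / 5 * x, mul_ne_zero (div_ne_zero n3 n5) hx,
        mul_ne_zero (div_ne_zero n4 n5) hx, ?_⟩
      rw [← hxy, hy]
      field_simp
      ring
    exact ⟨x, y, hx, hy, hxy⟩
  exact ⟨u, v, w, hu, hv, hw, by linear_combination hvw⟩

/-- `1 + A_p (n) ≥ p / φ (p)³`. -/
theorem threeTerm_prime_ge {p : ℕ} (hp : p.Prime) (h5 : 5 ≤ p) {n : ℕ} (hn : p = 5 → n % 5 ≠ 0) :
    ∃ v : ℝ, (1 + threeTerm n p : ℂ) = v ∧ (p : ℝ) / (p.totient : ℝ) ^ 3 ≤ v := by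
  have : NeZero p := ⟨hp.ne_zero⟩
  obtain ⟨T, hT⟩ : ∃ T : ℕ, T = ((Fintype.piFinset fun _ : Fin 3 => unitResidues p).filter
      fun z => (p : ℤ) ∣ ((∑ i, z i ^ 2 : ℕ) : ℤ) - n).card := ⟨_, rfl⟩
  have hφ : (p.totient : ℂ) ≠ 0 := Nat.cast_ne_zero.2 (Nat.totient_pos.2 hp.pos).ne'
  have hins : range p = insert 0 (unitResidues p) := by
    ext r
    rw [unitResidues, mem_insert, mem_filter, mem_range, hp.coprime_iff_not_dvd]
    constructor
    · intro h
      rcases Nat.eq_zero_or_pos r with h0 | h0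
      · exact Or.inl h0
      · exact Or.inr ⟨h, fun hd => absurd (Nat.le_of_dvd h0 hd) (by omega)⟩
    · rintro (rfl | h)
      · exact hp.pos
      · exact h.1
  have htot : ∑ r ∈ range p, threeSummand n p r = (p : ℂ) * T / (p.totient : ℂ) ^ 3 := by
    have e : ∀ r ∈ range p, threeSummand n p r =
        (∑ z ∈ Fintype.piFinset (fun _ : Fin 3 => unitResidues p),
          eAdd (((((∑ i, z i ^ 2 : ℕ) : ℤ) - n : ℤ) : ℝ) * r / p)) / (p.totient : ℂ) ^ 3 := by
      intro r _
      rw [threeSummand, primeFactor, div_pow, div_mul_eq_mul_div]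
      congr 1
      have h := WaringAsymptotic.sum_eAdd_pow (unitResidues p) (fun _ => 1) (fun x => x ^ 2) 3
        ((r : ℝ) / p)
      simp only [one_mul, prod_const_one] at h
      rw [primeSquareSum, show ∑ x ∈ unitResidues p, eAdd (((r : ℕ) : ℤ) * (x : ℝ) ^ 2 / p) =
        ∑ i ∈ unitResidues p, eAdd ((i ^ 2 : ℕ) * ((r : ℝ) / p)) from sum_congr rfl fun x _ => by
          push_cast; ring_nf, h, sum_mul]
      refine sum_congr rfl fun z _ => ?_
      rw [← eAdd_add]
      push_cast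
      ring_nf
    rw [sum_congr rfl e, ← sum_div]
    congr 1
    rw [sum_comm, hT, card_filter, Nat.cast_sum, mul_sum]
    refine sum_congr rfl fun z _ => ?_
    rw [sum_eAdd_grid hp.pos]
    split_ifs <;> simp
  have h0 : threeSummand n p 0 = 1 := by
    rw [threeSummand, primeFactor, primeSquareSum]
    simp [card_unitResidues, hφ]
  have h1 : (1 + threeTerm n p : ℂ) = (((p : ℝ) * T / (p.totient : ℝ) ^ 3 : ℝ) : ℂ) := by
    rw [hins, sum_insert (by
      rw [unitResidues, mem_filter, hp.coprime_iff_not_dvd]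
      simp), h0] at htot
    rw [threeTerm, htot]
    push_cast
    rfl
  refine ⟨_, h1, div_le_div_of_nonneg_right (le_mul_of_one_le_right (Nat.cast_nonneg p) ?_)
    (by positivity)⟩
  rw [hT, Nat.one_le_cast, Finset.one_le_card]
  obtain ⟨x, y, z, hx, hy, hz, hxyz⟩ := exists_three_squares hp h5 (n : ZMod p) fun e h => hn e (by
    subst e
    rw [ZMod.natCast_eq_zero_iff] at h
    omega)
  refine ⟨![x.val, y.val, z.val], mem_filter.2 ⟨Fintype.mem_piFinset.2 fun i => ?_, ?_⟩⟩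
  · have key : ∀ t : ZMod p, t ≠ 0 → t.val ∈ unitResidues p := fun t ht => by
      rw [unitResidues, mem_filter, mem_range, hp.coprime_iff_not_dvd]
      refine ⟨ZMod.val_lt _, fun hd => ht ?_⟩
      rw [← ZMod.natCast_zmod_val t, ZMod.natCast_eq_zero_iff]
      exact hd
    fin_cases i
    exacts [key x hx, key y hy, key z hz]
  · rw [← ZMod.intCast_zmod_eq_zero_iff_dvd]
    simp [Fin.sum_univ_three, hxyz]

/-- Modulo `2`, `3`, `4` and `8` the squares of units are `1`. -/
theorem threeTerm_of_sq_eq_one {q : ℕ} [NeZero q]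
    (h : ∀ u : (ZMod q)ˣ, (u : ZMod q) ^ 2 = 1) {n : ℕ} (hn : (q : ℤ) ∣ 3 - n) :
    threeTerm n q = (q.totient : ℂ) := by
  have hC : ∀ a : ℤ, primeFactor q a = eAdd ((a : ℝ) / q) := fun a => by
    have e := primeSquareSum_eq q a
    simp only [h, mul_one, sum_const, card_univ, ZMod.card_units_eq_totient, nsmul_eq_mul,
      ← WaringAsymptotic.eAdd_div_eq_char] at e
    rw [primeFactor, e, mul_div_cancel_left₀]
    exact Nat.cast_ne_zero.2 (Nat.totient_pos.2 (NeZero.pos q)).ne'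
  rw [threeTerm, sum_congr rfl fun r _ => show threeSummand n q r = 1 by
    obtain ⟨m, hm⟩ := hn
    rw [threeSummand, hC, ← eAdd_nat_mul, ← eAdd_add]
    have hq : (q : ℝ) ≠ 0 := Nat.cast_ne_zero.2 (NeZero.ne q)
    have hm' : (3 : ℝ) - n = q * m := by exact_mod_cast hm
    rw [← eAdd_intCast (r * m)]
    congr 1
    push_cast
    field_simp
    linear_combination (r : ℝ) * hm']
  simp [card_unitResidues]

/-- The local density. -/
def localThree (n p : ℕ) : ℝ := (∑ l ∈ range 4, threeTerm n (p ^ l)).re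

/-- **The local densities at an admissible `n`.** -/
theorem localThree_spec {n : ℕ} (hn : IsAdmissible n) {p : ℕ} (hp : p.Prime) :
    ∑ l ∈ range 4, threeTerm n (p ^ l) = (localThree n p : ℂ) ∧
      1 / (p : ℝ) ^ 2 ≤ localThree n p ∧ (5 ≤ p → 1 - 64 / (p : ℝ) ≤ localThree n p) := by
  have hp2 : (2 : ℝ) ≤ p := by exact_mod_cast hp.two_le
  suffices h : ∃ v : ℝ, ∑ l ∈ range 4, threeTerm n (p ^ l) = v ∧ 1 / (p : ℝ) ^ 2 ≤ v ∧
      (5 ≤ p → 1 - 64 / (p : ℝ) ≤ v) by
    obtain ⟨v, h1, h2, h3⟩ := h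
    have e : localThree n p = v := by rw [localThree, h1, Complex.ofReal_re]
    rw [e]
    exact ⟨h1, h2, h3⟩
  simp only [sum_range_succ, range_zero, sum_empty, zero_add, threeTerm_one, pow_zero]
  have h24 := hn.1
  rcases eq_or_ne p 2 with rfl | hne2
  · norm_num only [pow_one]
    rw [threeTerm_of_sq_eq_one (q := 2) (by decide) (by omega),
      threeTerm_of_sq_eq_one (q := 4) (by decide) (by omega),
      threeTerm_of_sq_eq_one (q := 8) (by decide) (by omega)]
    have t4 : Nat.totient 4 = 2 := by decide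
    have t8 : Nat.totient 8 = 4 := by decide
    exact ⟨8, by rw [Nat.totient_two, t4, t8]; norm_num, by norm_num, fun h => absurd h (by norm_num)⟩
  rw [threeTerm_primePow_eq_zero n hp le_rfl (Or.inl hne2),
    threeTerm_primePow_eq_zero n hp (show 2 ≤ 3 by norm_num) (Or.inl hne2), add_zero, add_zero,
    pow_one]
  rcases eq_or_ne p 3 with rfl | hne3
  · rw [threeTerm_of_sq_eq_one (q := 3) (by decide) (by omega)]
    exact ⟨3, by rw [Nat.totient_prime Nat.prime_three]; norm_num, by norm_num,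
      fun h => absurd h (by norm_num)⟩
  have h5 : 5 ≤ p := by
    by_contra h
    have := hp.two_le
    have h4 : p = 4 := by omega
    exact absurd (h4 ▸ hp) (by decide)
  obtain ⟨v, hv, hle⟩ := threeTerm_prime_ge hp h5 fun _ => hn.2
  refine ⟨v, hv, le_trans ?_ hle, fun _ => ?_⟩
  · rw [Nat.totient_prime hp, Nat.cast_sub hp.one_le, Nat.cast_one,
      div_le_div_iff₀ (by positivity) (pow_pos (by linarith) 3), one_mul, ← pow_succ']
    exact pow_le_pow_left₀ (by linarith) (by linarith) 3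
  · have h1 : v = 1 + (threeTerm n p).re := by
      simpa using (congrArg Complex.re hv).symm
    have h4 := (abs_le.1 ((Complex.abs_re_le_norm _).trans (norm_threeTerm_prime_le hp hne2 n))).1
    linarith

end FA.HuaThreeSquares
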