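import Fermat.Agent.HuaThreeSquares.Singular
import Fermat.Agent.HuaSquares.Circle
import Fermat.Agent.FourCubes.Major

/-!
# The mean square of the deviation

By Bessel, `∑_{n ≤ N} |R (n) - J (n) S_Q (n)| ^ 2` is at most the mean square on a grid of
`S ^ 3 - ∑ (C_q (a) / φ q) ^ 3 V (α - a/q) ^ 3`: it is `O (N ^ 2 / log N)` by the bound on the
minor arcs with the fourth moment, and by Siegel and Walfisz on the major ones.
-/

set_option autoImplicit false

noncomputable section

namespace FA.HuaThreeSquares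

open Finset FA.ThreePrimes FA.HuaSquares ArithmeticFunction
open FA.HuaCubes (intTrig intTrig_mul)
open scoped Real

/-- The triples of variables. -/
def triples (P : ℕ) : Finset (ℕ × ℕ × ℕ) := Ioc 0 P ×ˢ (Ioc 0 P ×ˢ Ioc 0 P)

/-- The weighted representations of `n` by three squares with variables up to `P`. -/
def threeSum (f : ℕ → ℝ) (P n : ℕ) : ℝ :=
  ∑ z ∈ (triples P).filter (fun z => z.1 ^ 2 + (z.2.1 ^ 2 + z.2.2 ^ 2) = n),
    f z.1 * (f z.2.1 * f z.2.2)

/-- `J (n)`, the expected weight without the local factors. -/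
def tripleWeight (N n : ℕ) : ℝ :=
  ∑ m ∈ (triples N).filter (fun m => m.1 + (m.2.1 + m.2.2) = n),
    WaringAsymptotic.weight (1 / 2) m.1 *
      (WaringAsymptotic.weight (1 / 2) m.2.1 * WaringAsymptotic.weight (1 / 2) m.2.2)

/-- What is left of the cube of the sum over squares. -/
def threeRemainder (N P Q : ℕ) (t : ℝ) : ℂ :=
  squareTwist t Λ P ^ 3 -
    ∑ z ∈ arcCentres Q, triWeight z * WaringAsymptotic.weightSum (1 / 2) N (t - centre z) ^ 3

theorem squareTwist_cube (f : ℕ → ℝ) (P : ℕ) (t : ℝ) : squareTwist t f P ^ 3 =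
    intTrig (triples P) (fun z => (f z.1 : ℂ) * ((f z.2.1 : ℂ) * (f z.2.2 : ℂ)))
      (fun z => ((z.1 ^ 2 + (z.2.1 ^ 2 + z.2.2 ^ 2) : ℕ) : ℤ)) t := by
  have e : squareTwist t f P =
      intTrig (Ioc 0 P) (fun n => (f n : ℂ)) (fun n => ((n ^ 2 : ℕ) : ℤ)) t := by
    rw [squareTwist, intTrig]
    refine sum_congr rfl fun n _ => ?_
    push_cast
    rw [mul_comm t]
  rw [e, pow_succ', pow_succ', pow_one, intTrig_mul, intTrig_mul]
  simp only [Nat.cast_add]
  rfl

theorem weightSum_cube_shift (N : ℕ) (t θ : ℝ) :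
    WaringAsymptotic.weightSum (1 / 2) N (t - θ) ^ 3 = intTrig (triples N)
      (fun m => (WaringAsymptotic.weight (1 / 2) m.1 : ℂ) *
        ((WaringAsymptotic.weight (1 / 2) m.2.1 : ℂ) * (WaringAsymptotic.weight (1 / 2) m.2.2 : ℂ)) *
        eAdd (-(((m.1 + (m.2.1 + m.2.2) : ℕ) : ℝ) * θ)))
      (fun m => ((m.1 + (m.2.1 + m.2.2) : ℕ) : ℤ)) t := by
  have e : WaringAsymptotic.weightSum (1 / 2) N (t - θ) = intTrig (Ioc 0 N)
      (fun m => (WaringAsymptotic.weight (1 / 2) m : ℂ)) (fun m => (m : ℤ)) (t - θ) := by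
    simp [WaringAsymptotic.weightSum, intTrig]
  rw [e, pow_succ', pow_succ', pow_one, intTrig_mul, intTrig_mul, intTrig, intTrig]
  refine sum_congr rfl fun m _ => ?_
  simp only [mul_assoc, ← eAdd_add]
  push_cast
  ring_nf

/-- **One deviation from the grid.** -/
theorem sum_grid_threeRemainder {N P Q M : ℕ} (hM : M = 4 * N) (hPN : P ^ 2 ≤ N) {n : ℕ}
    (hn : n ∈ Ioc 0 N) :
    ∑ h ∈ range M, threeRemainder N P Q ((h : ℝ) / M) * eAdd (-((n : ℝ) * h / M)) =
      (M : ℂ) * ((threeSum Λ P n : ℂ) -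
        (tripleWeight N n : ℂ) * ∑ q ∈ Icc 1 Q, threeTerm n q) := by
  rw [mem_Ioc] at hn
  have hM0 : 0 < M := by omega
  simp only [threeRemainder, sub_mul, sum_sub_distrib, mul_sub, sum_mul]
  congr 1
  · simp only [squareTwist_cube]
    rw [FourCubes.sum_intTrig_coeff _ _ _ hM0 n fun i hi => ?_]
    · simp only [threeSum, Complex.ofReal_sum, Nat.cast_inj]
      congr 1
      exact sum_congr rfl fun z _ => by push_cast; rfl
    · simp only [triples, mem_product, mem_Ioc] at hi
      have h1 := Nat.pow_le_pow_left hi.1.2 2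
      have h2 := Nat.pow_le_pow_left hi.2.1.2 2
      have h3 := Nat.pow_le_pow_left hi.2.2.2 2
      rw [abs_lt]
      omega
  · rw [sum_comm, threeTerm_eq_arcs, mul_sum, mul_sum, ← arcCentres]
    refine sum_congr rfl fun z _ => ?_
    simp only [weightSum_cube_shift, mul_assoc, ← mul_sum]
    rw [FourCubes.sum_intTrig_coeff _ _ _ hM0 n fun i hi => ?_]
    · rw [tripleWeight, Complex.ofReal_sum,
        show (triples N).filter (fun m => ((m.1 + (m.2.1 + m.2.2) : ℕ) : ℤ) = n) =
          (triples N).filter (fun m => m.1 + (m.2.1 + m.2.2) = n) from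
          filter_congr fun m _ => Int.natCast_inj]
      rw [sum_congr rfl fun m hm => by rw [(mem_filter.1 hm).2], sum_mul, mul_sum, mul_sum, mul_sum]
      refine sum_congr rfl fun m _ => ?_
      push_cast
      ring
    · simp only [triples, mem_product, mem_Ioc] at hi
      rw [abs_lt]
      omega

/-- **The deviations and the remainder.** -/
theorem sum_three_deviation_le {N P Q M : ℕ} (hN : 1 ≤ N) (hM : M = 4 * N) (hPN : P ^ 2 ≤ N) :
    (M : ℝ) * ∑ n ∈ Ioc 0 N,
        ‖(threeSum Λ P n : ℂ) - (tripleWeight N n : ℂ) * ∑ q ∈ Icc 1 Q, threeTerm n q‖ ^ 2 ≤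
      ∑ h ∈ range M, ‖threeRemainder N P Q ((h : ℝ) / M)‖ ^ 2 := by
  refine le_of_mul_le_mul_left ?_ (show (0 : ℝ) < M by rw [hM]; positivity)
  refine le_trans (le_of_eq ?_) (FourCubes.sum_norm_coeff_sq_le
    (fun h => threeRemainder N P Q ((h : ℝ) / M)) (A := 0) (B := N) (by omega))
  rw [← mul_assoc, mul_sum]
  refine sum_congr rfl fun n hn => ?_
  rw [sum_grid_threeRemainder hM hPN hn, norm_mul, Complex.norm_natCast, mul_pow]
  ring

/-- **The mean square of the deviation.** -/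
theorem exists_deviation_le : ∃ (K N₀ : ℕ) (C : ℝ), 1 ≤ K ∧ 0 < C ∧ ∀ N P : ℕ, N₀ ≤ N →
    P = Nat.sqrt N → 1 ≤ Real.log P ∧
      ∑ n ∈ Ioc 0 N, ‖(threeSum Λ P n : ℂ) -
          (tripleWeight N n : ℂ) * ∑ q ∈ Icc 1 ⌊Real.log P ^ K⌋₊, threeTerm n q‖ ^ 2 ≤
        C * ((N : ℝ) ^ 2 / Real.log P) := by
  classical
  obtain ⟨K, C₁, L₀, hK2, hC₁, hmin⟩ := exists_minor_bound 4
  obtain ⟨C₂, hC₂, hmaj⟩ := exists_square_major K (6 * K + 1)
  obtain ⟨K₀, hK₀, hpow⟩ := exists_log_pow_le (6 * K + 1)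
  obtain ⟨T₀, hT₀⟩ : ∃ T₀ : ℕ,
      T₀ = max ⌈(2 * K₀ + 1) ^ 2⌉₊ ⌈Real.exp (max (max L₀ 4) 1)⌉₊ := ⟨_, rfl⟩
  refine ⟨K, (T₀ + 1) ^ 2, 2 * (C₁ ^ 2 * (3 * 8 ^ 3) + 133 * (972 * (C₂ + 2 * K₀)) ^ 2) +
    2 * (729 * 42), by omega, by positivity, fun N P hN hP => ?_⟩
  have hTP : T₀ + 1 ≤ P := hP ▸ Nat.le_sqrt'.2 hN
  have hPN : P ^ 2 ≤ N := hP ▸ Nat.sqrt_le' N
  have hNP : N < (P + 1) ^ 2 := hP ▸ Nat.lt_succ_sqrt' N
  obtain ⟨l, hl⟩ : ∃ l, l = Real.log P := ⟨_, rfl⟩
  have hP1 : (1 : ℝ) ≤ P := by exact_mod_cast (show 1 ≤ P by omega)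
  have hlge : max (max L₀ 4) 1 ≤ l := by
    rw [hl, Real.le_log_iff_exp_le (by linarith)]
    refine (Nat.le_ceil _).trans (Nat.cast_le.2 (le_trans ?_ hTP))
    rw [hT₀]
    exact le_trans (le_max_right _ _) (Nat.le_succ _)
  have hlL : L₀ ≤ l := (le_max_left _ _).trans ((le_max_left _ _).trans hlge)
  have hl4 : 4 ≤ l := (le_max_right _ _).trans ((le_max_left _ _).trans hlge)
  have hl1 : 1 ≤ l := (le_max_right _ _).trans hlge
  rw [← hl]
  refine ⟨hl1, ?_⟩
  have hl0 : 0 < l := by linarith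
  have hP2 : 2 ≤ P := by
    by_contra h
    interval_cases P <;> simp at hl <;> linarith
  have hN1 : 1 ≤ N := le_trans (Nat.one_le_pow _ _ (by omega)) hPN
  have hN0 : (0 : ℝ) < N := Nat.cast_pos.2 hN1
  have hN2P : (N : ℝ) ≤ (2 * (P : ℝ)) ^ 2 := by
    exact_mod_cast hNP.le.trans (Nat.pow_le_pow_left (show P + 1 ≤ 2 * P by omega) 2)
  have hPNr : (P : ℝ) ^ 2 ≤ N := by exact_mod_cast hPN
  have hsPK : 2 * K₀ + 1 ≤ √(P : ℝ) := by
    refine Real.le_sqrt_of_sq_le ((Nat.le_ceil _).trans (Nat.cast_le.2 (le_trans ?_ hTP)))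
    rw [hT₀]
    exact le_trans (le_max_left _ _) (Nat.le_succ _)
  have hsP : √(P : ℝ) ≤ P := by
    rw [Real.sqrt_le_left (by linarith)]
    nlinarith
  have hlpow : ∀ m, m ≤ 6 * K + 1 → l ^ m ≤ K₀ * √(P : ℝ) := fun m hm =>
    (pow_le_pow_right₀ hl1 hm).trans (hl ▸ hpow P hP1)
  obtain ⟨Q, hQ⟩ : ∃ Q, Q = ⌊l ^ K⌋₊ := ⟨_, rfl⟩
  have hlK1 : 1 ≤ l ^ K := one_le_pow₀ hl1
  have hQl : (Q : ℝ) ≤ l ^ K := hQ ▸ Nat.floor_le (by linarith)
  rw [← hQ]
  obtain ⟨L, hL⟩ : ∃ L, L = l ^ (3 * K) := ⟨_, rfl⟩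
  have hL1 : 1 ≤ L := hL ▸ one_le_pow₀ hl1
  have hKL : l ^ K ≤ L := hL ▸ pow_le_pow_right₀ hl1 (by omega)
  obtain ⟨M, hM⟩ : ∃ M, M = 4 * N := ⟨_, rfl⟩
  have : NeZero M := ⟨by omega⟩
  have hMr : (M : ℝ) = 4 * N := by rw [hM]; push_cast; ring
  have hM0 : (0 : ℝ) < M := by rw [hMr]; positivity
  obtain ⟨δ, hδ⟩ : ∃ δ, δ = L / (N : ℝ) := ⟨_, rfl⟩
  have hδ0 : 0 < δ := by rw [hδ]; positivity
  have hlogM : 1 + Real.log M ≤ 8 * l := by
    have h1 : (M : ℝ) ≤ 2 ^ 4 * (P : ℝ) ^ 2 := by
      rw [hMr]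
      rw [mul_pow] at hN2P
      linarith
    have h2 := Real.log_le_log hM0 h1
    rw [Real.log_mul (by norm_num) (by positivity), Real.log_pow, Real.log_pow, ← hl] at h2
    push_cast at h2
    linarith [Real.log_two_lt_d9]
  have hlogM0 : 0 ≤ Real.log M := Real.log_natCast_nonneg M
  refine le_of_mul_le_mul_left ((sum_three_deviation_le hN1 hM hPN).trans ?_) hM0
  obtain ⟨T, hT⟩ : ∃ T : ℕ → (Σ _ : ℕ, ℕ) → ℂ, T = fun (h : ℕ) z =>
      triWeight z * WaringAsymptotic.weightSum (1 / 2) N ((h : ℝ) / M - centre z) ^ 3 := ⟨_, rfl⟩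
  obtain ⟨F, hF⟩ : ∃ F : ℕ → ℂ, F = fun h : ℕ => squareTwist ((h : ℝ) / M) Λ P ^ 3 -
      ∑ z ∈ (arcCentres Q).filter (fun z => h ∈ arc M δ z), T h z := ⟨_, rfl⟩
  obtain ⟨D, hD⟩ : ∃ D, D = (M : ℝ) * ((N : ℝ) ^ 2 / l) := ⟨_, rfl⟩
  have hD0 : 0 ≤ D := by rw [hD]; positivity
  have hrem : ∀ h : ℕ, threeRemainder N P Q ((h : ℝ) / M) =
      F h - ∑ z ∈ (arcCentres Q).filter (fun z => h ∉ arc M δ z), T h z := fun h => by
    rw [threeRemainder, ← sum_filter_add_sum_filter_not (arcCentres Q) (fun z => h ∈ arc M δ z),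
      hF, hT, sub_sub]
  -- the arcs are apart
  have huniq : ∀ h z u, z ∈ arcCentres Q → u ∈ arcCentres Q → h ∈ arc M δ z → h ∈ arc M δ u →
      z = u := by
    intro x z u hz hu hx hx'
    by_contra hne
    rw [arc, mem_filter] at hx hx'
    have h1 := inv_mul_le_nearDist_centre hz hu hne
    have h2 := nearDist_sub_sub_le (centre z) (centre u) ((x : ℝ) / M)
    have hQ0 : (0 : ℝ) < Q := by
      rw [hQ, Nat.cast_pos, Nat.floor_pos]
      exact hlK1
    have h3 : 2 * δ < 1 / ((Q : ℝ) * Q) := by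
      rw [hδ, mul_div_assoc', div_lt_div_iff₀ hN0 (by positivity), one_mul]
      calc 2 * L * ((Q : ℝ) * Q) ≤ 2 * (L * (l ^ K * l ^ K)) := by
            rw [mul_assoc]
            gcongr
        _ ≤ 2 * (K₀ * √(P : ℝ)) := by
            refine mul_le_mul_of_nonneg_left (le_of_eq_of_le ?_
              (hlpow (5 * K) (by omega))) zero_le_two
            rw [hL, ← pow_add, ← pow_add]
            congr 1
            omega
        _ < √(P : ℝ) * √(P : ℝ) := by
            have : 0 < √(P : ℝ) := Real.sqrt_pos.2 (by linarith)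
            nlinarith
        _ = P := Real.mul_self_sqrt (by linarith)
        _ ≤ N := le_trans (le_self_pow₀ hP1 two_ne_zero) hPNr
    linarith
  -- on the arcs and off all of them
  have hA : ∑ h ∈ range M, ‖F h‖ ^ 2 ≤
      (C₁ ^ 2 * (3 * 8 ^ 3) + 133 * (972 * (C₂ + 2 * K₀)) ^ 2) * D := by
    rw [← sum_filter_add_sum_filter_not (range M) (fun h => ∀ z ∈ arcCentres Q, h ∉ arc M δ z),
      add_mul]
    refine add_le_add ?_ ?_
    · refine (sum_le_sum (g := fun h : ℕ => (C₁ * (P / l ^ 4)) ^ 2 *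
        ‖squareTwist ((h : ℝ) / M) Λ P‖ ^ 4) fun h hh => ?_).trans ?_
      · rw [mem_filter] at hh
        rw [hF]
        simp only
        rw [filter_eq_empty_iff.2 fun z hz => hh.2 z hz, sum_empty, sub_zero, norm_pow, ← pow_mul,
          show 3 * 2 = 2 + 4 by norm_num, pow_add]
        refine mul_le_mul_of_nonneg_right (pow_le_pow_left₀ (norm_nonneg _) ?_ 2) (by positivity)
        rw [hl] at hlL ⊢
        refine hmin N P _ hP hN1 hlL ?_ fun z hz => ?_
        · rw [← hl]
          refine (hlpow K (by omega)).trans (le_trans ?_ hPNr)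
          rw [sq]
          exact mul_le_mul (by linarith) hsP (Real.sqrt_nonneg _) (by linarith)
        · by_contra hle
          rw [← hl] at hle hz
          refine hh.2 z (hQ ▸ hz) (mem_filter.2 ⟨hh.1, (not_lt.1 hle).trans ?_⟩)
          rw [hδ]
          exact div_le_div_of_nonneg_right hKL hN0.le
      · rw [← mul_sum]
        refine (mul_le_mul_of_nonneg_left (sum_le_sum_of_subset_of_nonneg (t := range M)
          (filter_subset _ _) fun i _ _ => by positivity) (by positivity)).trans ?_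
        rw [sum_norm_squareTwist_pow_four _ (show 2 * P ^ 2 < M by omega)]
        have hq4 : quadrupleSum Λ P ≤ l ^ 4 * (3 * (P : ℝ) ^ 2 * (8 * l) ^ 3) := by
          refine (quadrupleSum_le (B := l) fun n hn => ?_).trans ?_
          · rw [mem_Ioc] at hn
            rw [abs_of_nonneg vonMangoldt_nonneg, hl]
            exact vonMangoldt_le_log.trans
              (Real.log_le_log (Nat.cast_pos.2 hn.1) (Nat.cast_le.2 hn.2))
          · refine mul_le_mul_of_nonneg_left (mul_le_mul_of_nonneg_left (pow_le_pow_left₀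
              (by linarith [one_le_scale P]) ?_ 3) (by positivity)) (by positivity)
            rw [scale, logOne, ← hl]
            linarith
        refine (mul_le_mul_of_nonneg_left (mul_le_mul_of_nonneg_left hq4 hM0.le)
          (by positivity)).trans ?_
        calc (C₁ * ((P : ℝ) / l ^ 4)) ^ 2 * (M * (l ^ 4 * (3 * (P : ℝ) ^ 2 * (8 * l) ^ 3)))
            = C₁ ^ 2 * (3 * 8 ^ 3) * ((M : ℝ) * (((P : ℝ) ^ 2) ^ 2 / l)) := by field_simp
          _ ≤ _ := by rw [hD]; gcongr
    · obtain ⟨X, hX⟩ : ∃ X, X = 972 * (C₂ + 2 * K₀) * ((P : ℝ) ^ 3 * L / l ^ (6 * K + 1)) :=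
        ⟨_, rfl⟩
      refine (sum_le_card_nsmul _ _ (X ^ 2) fun h hh => ?_).trans ?_
      · rw [mem_filter] at hh
        push Not at hh
        obtain ⟨z, hz, hhz⟩ := hh.2
        rw [hF]
        simp only
        rw [show (arcCentres Q).filter (fun z => h ∈ arc M δ z) = {z} from
          eq_singleton_iff_unique_mem.2 ⟨mem_filter.2 ⟨hz, hhz⟩, fun u hu =>
            huniq h u z (mem_filter.1 hu).1 hz (mem_filter.1 hu).2 hhz⟩, sum_singleton, hT]
        refine pow_le_pow_left₀ (norm_nonneg _) ?_ 2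
        obtain ⟨q, r⟩ := z
        obtain ⟨⟨hq, hqQ⟩, -, -⟩ := mem_arcCentres.1 hz
        simp only at hq hqQ
        have : NeZero q := ⟨by omega⟩
        have hqR' : (q : ℝ) ≤ l ^ K := (Nat.cast_le.2 hqQ).trans hQl
        rw [arc, mem_filter, nearDist] at hhz
        obtain ⟨j, hj⟩ : ∃ j, j = round ((h : ℝ) / M - centre ⟨q, r⟩) := ⟨_, rfl⟩
        obtain ⟨β, hβ⟩ : ∃ β, β = (h : ℝ) / M - centre ⟨q, r⟩ - j := ⟨_, rfl⟩
        rw [← hj, ← hβ] at hhz
        have hα : squareTwist ((h : ℝ) / M) Λ P = squareTwist (((r : ℤ) : ℝ) / (q : ℝ) + β) Λ P := by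
          refine sum_congr rfl fun x _ => congrArg _ ?_
          rw [← eAdd_add_intCast _ (-(j * (x : ℤ) ^ 2)), hβ, centre]
          push_cast
          ring_nf
        have happ := hmaj N P q (r : ℤ) β hP2 hPN hNP (hl ▸ hqR')
        rw [← hα, ← hl] at happ
        simp only
        rw [triWeight, ← mul_pow, ← WaringAsymptotic.weightSum_sub_intCast _ N _ j, ← hβ]
        have hS : ‖squareTwist ((h : ℝ) / M) Λ P‖ ≤ 6 * P := by
          refine (norm_sum_le _ _).trans (le_of_eq_of_le (sum_congr rfl fun n _ => ?_)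
            (sum_vonMangoldt_le P))
          rw [norm_mul, norm_eAdd, mul_one, Complex.norm_real, Real.norm_eq_abs,
            abs_of_nonneg vonMangoldt_nonneg]
        have hV : ‖primeFactor q r * WaringAsymptotic.weightSum (1 / 2) N β‖ ≤ 6 * P := by
          rw [norm_mul]
          refine (mul_le_of_le_one_left (norm_nonneg _) (norm_primeFactor_le_one _ _)).trans
            ((WaringAsymptotic.norm_weightSum_le (by norm_num) (by norm_num) N β).trans ?_)
          rw [← Real.sqrt_eq_rpow, Real.sqrt_le_left (by positivity)]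
          refine hN2P.trans (pow_le_pow_left₀ (by positivity) (by linarith) 2)
        refine (norm_cube_sub_le hS hV).trans ?_
        refine (mul_le_mul_of_nonneg_left (happ.trans (mul_le_mul ?_ ?_ ?_ ?_))
          (by positivity)).trans (le_of_eq (?_ : 3 * (6 * (P : ℝ)) ^ 2 *
            ((C₂ + 2 * K₀) * (P / l ^ (6 * K + 1)) * (9 * L)) = X))
        · rw [add_mul]
          refine add_le_add le_rfl ?_
          rw [mul_assoc, le_mul_iff_one_le_right two_pos, mul_div_assoc',
            one_le_div (by positivity)]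
          exact (hlpow _ le_rfl).trans (mul_le_mul_of_nonneg_left hsP hK₀.le)
        · have h1 : |β| * N ≤ L := by
            rw [← le_div_iff₀ hN0, ← hδ]
            exact hhz.2
          have := mul_le_mul_of_nonneg_left h1 (show (0 : ℝ) ≤ 2 * π by positivity)
          have := mul_le_mul_of_nonneg_right Real.pi_le_four (show (0 : ℝ) ≤ L by linarith)
          linarith
        · positivity
        · positivity
        · rw [hX]; ring
      rw [nsmul_eq_mul]
      have hcard : (((range M).filter fun h => ¬∀ z ∈ arcCentres Q, h ∉ arc M δ z).card : ℝ) ≤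
          133 * (l ^ K * l ^ K * (L * l)) := by
        refine (Nat.cast_le.2 ((card_le_card fun h hh => ?_).trans card_biUnion_le :
          ((range M).filter fun h => ¬∀ z ∈ arcCentres Q, h ∉ arc M δ z).card ≤
            ∑ z ∈ arcCentres Q, (arc M δ z).card)).trans ?_
        · rw [mem_filter] at hh
          push Not at hh
          exact mem_biUnion.2 hh.2
        push_cast
        refine (sum_le_card_nsmul _ _ (133 * (L * l)) fun z _ => ?_).trans ?_
        · refine (card_arc_le hδ0 z).trans ?_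
          have hMd : 4 * (M : ℝ) * δ = 16 * L := by rw [hMr, hδ]; field_simp; ring
          rw [hMd]
          have := mul_le_mul_of_nonneg_left hlogM (show 0 ≤ 16 * L by positivity)
          have : 1 ≤ L * l := one_le_mul_of_one_le_of_one_le hL1 hl1
          linarith
        · rw [nsmul_eq_mul]
          exact (mul_le_mul_of_nonneg_right ((FourCubes.card_arcCentres_le Q).trans
            (pow_le_pow_left₀ (Nat.cast_nonneg _) hQl 2)) (by positivity)).trans
              (le_of_eq (by ring))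
      refine (mul_le_mul_of_nonneg_right hcard (sq_nonneg X)).trans ?_
      calc 133 * (l ^ K * l ^ K * (L * l)) * X ^ 2
          = 133 * (972 * (C₂ + 2 * K₀)) ^ 2 *
              (((P : ℝ) ^ 2) ^ 3 * (l ^ (11 * K + 1) / l ^ (12 * K + 2))) := by
            have e1 : l ^ (6 * K + 1) = (l ^ K) ^ 6 * l := by rw [pow_succ, mul_comm 6 K, pow_mul]
            have e2 : l ^ (3 * K) = (l ^ K) ^ 3 := by rw [mul_comm 3 K, pow_mul]
            have e3 : l ^ (11 * K + 1) = (l ^ K) ^ 11 * l := by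
              rw [pow_succ, mul_comm 11 K, pow_mul]
            have e4 : l ^ (12 * K + 2) = (l ^ K) ^ 12 * l ^ 2 := by
              rw [pow_add, mul_comm 12 K, pow_mul]
            rw [hX, hL, e1, e2, e3, e4]
            generalize l ^ K = u
            ring
        _ ≤ _ := by
            refine mul_le_mul_of_nonneg_left ?_ (by positivity)
            calc ((P : ℝ) ^ 2) ^ 3 * (l ^ (11 * K + 1) / l ^ (12 * K + 2))
                ≤ (N : ℝ) ^ 3 * (1 / l) := by
                  refine mul_le_mul (pow_le_pow_left₀ (by positivity) hPNr 3) ?_ (by positivity)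
                    (by positivity)
                  rw [div_le_div_iff₀ (by positivity) hl0, one_mul, ← pow_succ]
                  exact pow_le_pow_right₀ hl1 (by omega)
              _ ≤ _ := by
                  rw [hD, hMr, mul_one_div, mul_div_assoc']
                  refine div_le_div_of_nonneg_right ?_ hl0.le
                  linarith [pow_nonneg hN0.le 3]
  -- the models off their arcs
  have hB : ∑ h ∈ range M, ‖∑ z ∈ (arcCentres Q).filter (fun z => h ∉ arc M δ z), T h z‖ ^ 2 ≤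
      729 * 42 * D := by
    have h1 : ∀ h : ℕ, ‖∑ z ∈ (arcCentres Q).filter (fun z => h ∉ arc M δ z), T h z‖ ^ 2 ≤
        l ^ (2 * K) * ∑ z ∈ arcCentres Q, if h ∉ arc M δ z then
          ‖WaringAsymptotic.weightSum (1 / 2) N ((h : ℝ) / M - centre z)‖ ^ 6 else 0 := by
      intro h
      refine (pow_le_pow_left₀ (norm_nonneg _) (norm_sum_le _ _) 2).trans
        (sq_sum_le_card_mul_sum_sq.trans ?_)
      rw [← sum_filter]
      refine mul_le_mul ((Nat.cast_le.2 (card_le_card (filter_subset _ _))).trans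
        ((FourCubes.card_arcCentres_le Q).trans ?_)) (sum_le_sum fun z _ => ?_)
        (sum_nonneg fun _ _ => sq_nonneg _) (by positivity)
      · rw [mul_comm 2 K, pow_mul]
        exact pow_le_pow_left₀ (Nat.cast_nonneg _) hQl 2
      · rw [hT]
        simp only [norm_mul, norm_pow, mul_pow, ← pow_mul]
        exact mul_le_of_le_one_left (by positivity)
          (pow_le_one₀ (norm_nonneg _) (norm_triWeight_le_one z))
    refine (sum_le_sum fun h _ => h1 h).trans ?_
    rw [← mul_sum, sum_comm]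
    have hoff : ∀ z ∈ arcCentres Q, (∑ h ∈ range M, if h ∉ arc M δ z then
        ‖WaringAsymptotic.weightSum (1 / 2) N ((h : ℝ) / M - centre z)‖ ^ 6 else 0) ≤
          729 * 42 * (δ ^ 2)⁻¹ * ((M : ℝ) * l) := by
      intro z _
      obtain ⟨Z, hZ⟩ : ∃ Z, Z = 1 / (2 * δ) := ⟨_, rfl⟩
      have hZ0 : 0 < Z := by rw [hZ]; positivity
      rw [← sum_filter]
      refine (sum_le_sum (g := fun h : ℕ =>
        729 * (δ ^ 2)⁻¹ * (2 * clip Z ((h : ℝ) / M - centre z))) fun h hh => ?_).trans ?_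
      · rw [mem_filter, arc, mem_filter, not_and, not_le] at hh
        have hd := hh.2 hh.1
        obtain ⟨d, hd'⟩ : ∃ d, d = nearDist ((h : ℝ) / M - centre z) := ⟨_, rfl⟩
        rw [← hd'] at hd
        have hd0 : 0 < d := hδ0.trans hd
        have h1 := WaringAsymptotic.norm_weightSum_le_inv (c := (1 / 2 : ℝ)) (by norm_num)
          (by norm_num) N (hd' ▸ hd0)
        rw [← hd'] at h1
        refine (pow_le_pow_left₀ (norm_nonneg _) h1 6).trans ?_
        have hclip : 2 * clip Z ((h : ℝ) / M - centre z) = d⁻¹ := by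
          rw [clip, ← hd', if_neg hd0.ne', min_eq_right
            (hZ ▸ one_div_le_one_div_of_le (by positivity) (by linarith))]
          field_simp
        rw [hclip, mul_pow, ← Real.rpow_natCast (d ^ _) 6, ← Real.rpow_mul hd0.le,
          show -(1 / 2 : ℝ) * ((6 : ℕ) : ℝ) = -((3 : ℕ) : ℝ) by norm_num,
          Real.rpow_neg hd0.le, Real.rpow_natCast, pow_succ d 2, mul_inv,
          show (3 : ℝ) ^ 6 = 729 by norm_num, ← mul_assoc]
        refine mul_le_mul_of_nonneg_right (mul_le_mul_of_nonneg_left ?_ (by norm_num))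
          (by positivity)
        exact inv_anti₀ (by positivity) (pow_le_pow_left₀ hδ0.le hd.le 2)
      rw [← mul_sum, ← mul_sum]
      refine (mul_le_mul_of_nonneg_left (mul_le_mul_of_nonneg_left
        ((sum_le_sum_of_subset_of_nonneg (filter_subset _ _) fun i _ _ => clip_nonneg hZ0.le _).trans
          (sum_clip_grid_le (centre z) hZ0.le)) two_pos.le) (by positivity)).trans ?_
      have hZM : 5 * Z + 2 * M * (1 + Real.log M) ≤ 21 * M * l := by
        have h1 : Z ≤ (M : ℝ) * 1 := by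
          rw [hZ, hδ, hMr, show 1 / (2 * (L / (N : ℝ))) = N / (2 * L) by field_simp,
            div_le_iff₀ (by positivity)]
          have := mul_le_mul_of_nonneg_left hL1 hN0.le
          linarith
        have h2 := mul_le_mul_of_nonneg_left hlogM (show 0 ≤ 2 * (M : ℝ) by positivity)
        have h3 := mul_le_mul_of_nonneg_left hl1 hM0.le
        linarith
      calc 729 * (δ ^ 2)⁻¹ * (2 * (5 * Z + 2 * M * (1 + Real.log M)))
          ≤ 729 * (δ ^ 2)⁻¹ * (2 * (21 * M * l)) := by gcongr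
        _ = _ := by ring
    refine (mul_le_mul_of_nonneg_left ((sum_le_card_nsmul _ _ _ hoff).trans (le_of_eq_of_le
      (nsmul_eq_mul _ _) (mul_le_mul_of_nonneg_right ((FourCubes.card_arcCentres_le Q).trans
        (pow_le_pow_left₀ (Nat.cast_nonneg _) hQl 2)) (by positivity)))) (by positivity)).trans ?_
    calc l ^ (2 * K) * ((l ^ K) ^ 2 * (729 * 42 * (δ ^ 2)⁻¹ * ((M : ℝ) * l)))
        = 729 * 42 * ((M : ℝ) * (N : ℝ) ^ 2 * (l ^ (4 * K + 1) / l ^ (6 * K))) := by
          have e1 : l ^ (2 * K) = (l ^ K) ^ 2 := by rw [mul_comm 2 K, pow_mul]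
          have e2 : l ^ (3 * K) = (l ^ K) ^ 3 := by rw [mul_comm 3 K, pow_mul]
          have e3 : l ^ (4 * K + 1) = (l ^ K) ^ 4 * l := by rw [pow_succ, mul_comm 4 K, pow_mul]
          have e4 : l ^ (6 * K) = (l ^ K) ^ 6 := by rw [mul_comm 6 K, pow_mul]
          rw [hδ, hL, e1, e2, e3, e4, div_pow _ (N : ℝ), inv_div]
          generalize l ^ K = u
          ring
      _ ≤ _ := by
          rw [hD, mul_div_assoc', mul_div_assoc', mul_div_assoc', mul_div_assoc',
            div_le_div_iff₀ (by positivity) hl0]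
          have h2 : l ^ (4 * K + 1) * l ≤ l ^ (6 * K) := by
            rw [← pow_succ]
            exact pow_le_pow_right₀ hl1 (by omega)
          have h3 := mul_le_mul_of_nonneg_left h2
            (show 0 ≤ 729 * 42 * ((M : ℝ) * (N : ℝ) ^ 2) by positivity)
          linarith
  simp only [hrem]
  refine (sum_le_sum fun h _ => (pow_le_pow_left₀ (norm_nonneg _) (norm_sub_le _ _) 2).trans
    add_sq_le).trans ?_
  rw [← mul_sum, sum_add_distrib]
  refine (mul_le_mul_of_nonneg_left (add_le_add hA hB) zero_le_two).trans (le_of_eq ?_)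
  rw [hD]
  ring

end FA.HuaThreeSquares
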