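import Fermat.Agent.HuaThreeSquares.Circle
import Fermat.Agent.HuaSquares.Main

/-!
# Almost all admissible numbers are sums of three squares of primes

An exception in `(ε N / 2, N]` has a small partial singular series, or many representations by
prime powers, or a large deviation: all three are rare.
-/

set_option autoImplicit false

noncomputable section

namespace FA.HuaThreeSquares

open Finset FA.ThreePrimes FA.HuaSquares ArithmeticFunction Filter Topology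
open scoped Real

/-- A sum of three squares of primes. -/
def IsThreePrimeSquares (n : ℕ) : Prop :=
  ∃ p q r : ℕ, p.Prime ∧ q.Prime ∧ r.Prime ∧ p ^ 2 + q ^ 2 + r ^ 2 = n

theorem weight_half_lower {j : ℕ} (hj : 4 ≤ j) {m : ℕ} (hm : m ≤ j) :
    1 / (6 * √(j : ℝ)) ≤ WaringAsymptotic.weight (1 / 2) m := by
  have hc : (0 : ℝ) < 1 / 2 := by norm_num
  refine le_trans ?_ (WaringAsymptotic.weight_antitone hc (by norm_num) hm)
  have h1 := (WaringAsymptotic.abs_sum_weight_sub_le hc (by norm_num) (4 * j)).1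
  have h2 := (WaringAsymptotic.abs_sum_weight_sub_le hc (by norm_num) j).2
  rw [← sum_Ioc_consecutive _ (Nat.zero_le j) (show j ≤ 4 * j by omega), ← Real.sqrt_eq_rpow] at h1
  rw [← Real.sqrt_eq_rpow] at h2
  have h3 : ∑ i ∈ Ioc j (4 * j), WaringAsymptotic.weight (1 / 2) i ≤
      (3 * j : ℕ) * WaringAsymptotic.weight (1 / 2) j := by
    refine (sum_le_card_nsmul _ _ (WaringAsymptotic.weight (1 / 2) j) fun i hi =>
      WaringAsymptotic.weight_antitone hc (by norm_num) (mem_Ioc.1 hi).1.le).trans (le_of_eq ?_)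
    rw [Nat.card_Ioc, nsmul_eq_mul, show 4 * j - j = 3 * j by omega]
  have hs4 : √((4 * j : ℕ) : ℝ) = 2 * √(j : ℝ) := by
    push_cast
    rw [Real.sqrt_mul (by norm_num), show (4 : ℝ) = 2 ^ 2 by norm_num, Real.sqrt_sq two_pos.le]
  rw [hs4] at h1
  push_cast at h3
  have hs2 : 2 ≤ √(j : ℝ) := by
    rw [Real.le_sqrt two_pos.le (Nat.cast_nonneg j)]
    exact le_trans (by norm_num) (Nat.cast_le.2 hj)
  have hss := Real.mul_self_sqrt (Nat.cast_nonneg (α := ℝ) j)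
  obtain ⟨u, hu⟩ : ∃ u, u = WaringAsymptotic.weight (1 / 2) j := ⟨_, rfl⟩
  rw [← hu] at h3 ⊢
  rw [div_le_iff₀ (by positivity)]
  refine le_of_mul_le_mul_right ?_ (show 0 < √(j : ℝ) by linarith)
  have e : u * (6 * √(j : ℝ)) * √(j : ℝ) = 6 * (j * u) := by linear_combination (6 * u) * hss
  linarith

theorem tripleWeight_lower {N n : ℕ} (hn : n ≤ N) (h6 : 6 ≤ n) :
    √(n : ℝ) / 7776 ≤ tripleWeight N n := by
  obtain ⟨s, hs⟩ : ∃ s, s = √(n : ℝ) := ⟨_, rfl⟩
  have hn0 : (0 : ℝ) < n := Nat.cast_pos.2 (by omega)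
  have hs0 : 0 < s := hs ▸ Real.sqrt_pos.2 hn0
  rw [← hs, tripleWeight]
  refine le_trans ?_ (card_nsmul_le_sum _ _
    (1 / (6 * s) * (1 / (6 * s) * (1 / (6 * s)))) fun m hm => ?_)
  swap
  · simp only [triples, mem_filter, mem_product, mem_Ioc] at hm
    obtain ⟨⟨⟨-, -⟩, ⟨-, -⟩, -, -⟩, hmn⟩ := hm
    exact mul_le_mul (hs ▸ weight_half_lower (by omega) (by omega))
      (mul_le_mul (hs ▸ weight_half_lower (by omega) (by omega))
        (hs ▸ weight_half_lower (by omega) (by omega)) (by positivity)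
        (WaringAsymptotic.weight_nonneg (by norm_num) _)) (by positivity)
      (WaringAsymptotic.weight_nonneg (by norm_num) _)
  rw [nsmul_eq_mul]
  have hcard : n / 3 * (n / 3) ≤
      ((triples N).filter fun m => m.1 + (m.2.1 + m.2.2) = n).card := by
    refine le_trans (le_of_eq ?_) (card_le_card_of_injOn (fun a => (a.1, a.2, n - a.1 - a.2))
      (s := Ioc 0 (n / 3) ×ˢ Ioc 0 (n / 3)) (fun a ha => ?_) fun a _ b _ e => ?_)
    · rw [card_product, Nat.card_Ioc, Nat.sub_zero]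
    · simp only [mem_coe, triples, mem_filter, mem_product, mem_Ioc] at ha ⊢
      omega
    · simp only [Prod.mk.injEq] at e
      exact Prod.ext e.1 e.2.1
  have hk : (n : ℝ) / 6 ≤ (n / 3 : ℕ) := by
    rw [div_le_iff₀ (by norm_num)]
    exact_mod_cast (show n ≤ n / 3 * 6 by omega)
  have hcard' : (n : ℝ) / 6 * ((n : ℝ) / 6) ≤
      (((triples N).filter fun m => m.1 + (m.2.1 + m.2.2) = n).card : ℝ) := by
    refine (mul_le_mul hk hk (by positivity) (Nat.cast_nonneg _)).trans ?_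
    exact_mod_cast hcard
  refine le_trans (le_of_eq ?_) (mul_le_mul_of_nonneg_right hcard' (by positivity))
  rw [show (n : ℝ) = s * s from hs ▸ (Real.mul_self_sqrt hn0.le).symm]
  field_simp
  ring

/-- **The prime powers are negligible on average.** -/
theorem sum_threeSum_sub_le (N : ℕ) {P : ℕ} (hP : 1 ≤ P) :
    ∑ n ∈ Ioc 0 N, (threeSum Λ P n - threeSum primePart P n) ≤
      216 * ((P : ℝ) ^ 2 * √(P : ℝ) * Real.log P) := by
  have hnn : ∀ z : ℕ × ℕ × ℕ,
      0 ≤ Λ z.1 * (Λ z.2.1 * Λ z.2.2) - primePart z.1 * (primePart z.2.1 * primePart z.2.2) :=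
    fun z => sub_nonneg.2 (mul_le_mul (primePart_le _) (mul_le_mul (primePart_le _)
      (primePart_le _) (primePart_nonneg _) vonMangoldt_nonneg)
      (mul_nonneg (primePart_nonneg _) (primePart_nonneg _)) vonMangoldt_nonneg)
  simp only [threeSum, ← sum_sub_distrib]
  refine (sum_fiberwise_le_sum_of_sum_fiber_nonneg fun y _ => sum_nonneg fun z _ => hnn z).trans ?_
  simp only [triples, sum_sub_distrib, sum_product, ← mul_sum, ← sum_mul]
  obtain ⟨A, hA⟩ : ∃ A, A = ∑ x ∈ Ioc 0 P, Λ x := ⟨_, rfl⟩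
  obtain ⟨B, hB⟩ : ∃ B, B = ∑ x ∈ Ioc 0 P, primePart x := ⟨_, rfl⟩
  rw [← hA, ← hB]
  have hA6 : A ≤ 6 * P := hA ▸ sum_vonMangoldt_le P
  have hB0 : 0 ≤ B := hB ▸ sum_nonneg fun x _ => primePart_nonneg x
  have hBA : B ≤ A := by
    rw [hA, hB]
    exact sum_le_sum fun x _ => primePart_le x
  have hAB : A - B ≤ 2 * √(P : ℝ) * Real.log P := by
    rw [hA, hB, ← sum_sub_distrib]
    refine le_of_eq_of_le (sum_congr rfl fun x _ => ?_) (sum_powerPart_le (N := P) hP)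
    rw [primePart, powerPart]
    split_ifs <;> ring
  have hP0 : (0 : ℝ) ≤ P := Nat.cast_nonneg P
  calc A * (A * A) - B * (B * B) = (A - B) * (A * A + A * B + B * B) := by ring
    _ ≤ (2 * √(P : ℝ) * Real.log P) * (3 * (6 * P) ^ 2) := by
        refine mul_le_mul hAB ?_ (by have := hB0.trans hBA; positivity)
          (le_trans (sub_nonneg.2 hBA) hAB)
        have h1 := mul_le_mul hA6 hA6 (hB0.trans hBA) (by positivity)
        have h2 := mul_le_mul hA6 (hBA.trans hA6) hB0 (by positivity)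
        have h3 := mul_le_mul (hBA.trans hA6) (hBA.trans hA6) hB0 (by positivity)
        linarith
    _ = _ := by ring

theorem threeSum_primePart_eq_zero {P n : ℕ} (h : ¬IsThreePrimeSquares n) :
    threeSum primePart P n = 0 := by
  refine sum_eq_zero fun z hz => ?_
  by_contra hne
  simp only [primePart, mul_ne_zero_iff, ne_eq, ite_eq_right_iff, Classical.not_imp] at hne
  refine h ⟨z.1, z.2.1, z.2.2, hne.1.1, hne.2.1.1, hne.2.2.1, ?_⟩
  rw [add_assoc]
  exact (mem_filter.1 hz).2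

open Classical in
/-- **Hua's theorem: almost all `n ≡ 3 (mod 24)` prime to `5` are sums of three squares of
primes.** -/
theorem eventually_exceptions_le {ε : ℝ} (hε : 0 < ε) : ∀ᶠ N : ℕ in atTop,
    (((Ioc 0 N).filter fun n => IsAdmissible n ∧ ¬IsThreePrimeSquares n).card : ℝ) ≤ ε * N := by
  obtain ⟨C₁, hC₁, hrest⟩ := exists_three_rest
  obtain ⟨c, hc, hlow⟩ := exists_smoothThree_ge
  obtain ⟨K, N₀, C₂, hK, hC₂, hdev⟩ := exists_deviation_le
  obtain ⟨K₀, hK₀, hpow⟩ := exists_log_pow_le (6 * K + 1)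
  obtain ⟨K₁, hK₁, hpow₁⟩ := exists_log_pow_le 2
  obtain ⟨w, hw3, hw⟩ : ∃ w : ℕ, 3 ≤ w ∧
      4 * C₁ / c ^ 2 * (Real.log w ^ (256 : ℝ) * (w : ℝ) ^ (-(1 / 2) : ℝ)) ≤ ε / 8 := by
    have h := ((isLittleO_log_rpow_rpow_atTop (256 : ℝ)
      (show (0 : ℝ) < 1 / 2 by norm_num)).comp_tendsto tendsto_natCast_atTop_atTop).bound
        (show 0 < ε / 8 / (4 * C₁ / c ^ 2) by positivity)
    obtain ⟨T, hT⟩ := eventually_atTop.1 h
    refine ⟨max 3 T, le_max_left _ _, ?_⟩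
    obtain ⟨w, hw⟩ : ∃ w, w = max 3 T := ⟨_, rfl⟩
    rw [← hw]
    have hw0 : (0 : ℝ) < w := Nat.cast_pos.2 (by omega)
    have h' := hT w (hw ▸ le_max_right _ _)
    simp only [Function.comp_apply, Real.norm_eq_abs] at h'
    rw [abs_of_nonneg (Real.rpow_nonneg (Real.log_natCast_nonneg w) _),
      abs_of_nonneg (Real.rpow_nonneg hw0.le _), div_mul_eq_mul_div, le_div_iff₀ (by positivity)] at h'
    rw [Real.rpow_neg hw0.le, ← mul_assoc, ← div_eq_mul_inv, div_le_iff₀ (by positivity)]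
    linarith
  obtain ⟨cw, hcw⟩ : ∃ cw : ℝ, cw = c / Real.log w ^ (128 : ℝ) := ⟨_, rfl⟩
  have hlw : 0 < Real.log w := Real.log_pos (by exact_mod_cast (show 1 < w by omega))
  have hcw0 : 0 < cw := by rw [hcw]; positivity
  obtain ⟨X, hX⟩ : ∃ X : ℝ, X = √(ε / 2) * cw / 31104 := ⟨_, rfl⟩
  have hX0 : 0 < X := by rw [hX]; positivity
  obtain ⟨b, hb⟩ : ∃ b : ℝ, b = 4 * K₀ / cw ^ 2 + 216 * K₁ / X + C₂ / X ^ 2 := ⟨_, rfl⟩
  obtain ⟨T, hT⟩ : ∃ T : ℕ, T = ⌈Real.exp (max (max (FourCubes.smoothModulus w : ℝ) (4 * b / ε)) 1)⌉₊ :=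
    ⟨_, rfl⟩
  refine eventually_atTop.2 ⟨max (max N₀ ((T + 1) ^ 2)) ⌈12 / ε⌉₊, fun N hN => ?_⟩
  simp only [max_le_iff] at hN
  obtain ⟨P, hP⟩ : ∃ P, P = Nat.sqrt N := ⟨_, rfl⟩
  have hTP : T + 1 ≤ P := hP ▸ Nat.le_sqrt'.2 hN.1.2
  have hPN : P ^ 2 ≤ N := hP ▸ Nat.sqrt_le' N
  have hP1 : (1 : ℝ) ≤ P := by exact_mod_cast (show 1 ≤ P by omega)
  have hPNr : (P : ℝ) ^ 2 ≤ N := by exact_mod_cast hPN
  have hN0 : (0 : ℝ) < N := lt_of_lt_of_le (by positivity) hPNr
  obtain ⟨hl1, hd⟩ := hdev N P hN.1.1 hP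
  obtain ⟨l, hl⟩ : ∃ l, l = Real.log P := ⟨_, rfl⟩
  rw [← hl] at hl1 hd
  have hl0 : 0 < l := by linarith
  have hlge : max (max (FourCubes.smoothModulus w : ℝ) (4 * b / ε)) 1 ≤ l := by
    rw [hl, Real.le_log_iff_exp_le (by linarith)]
    refine (Nat.le_ceil _).trans (Nat.cast_le.2 (le_trans (le_of_eq hT.symm) ?_))
    omega
  simp only [max_le_iff] at hlge
  obtain ⟨Q, hQ⟩ : ∃ Q, Q = ⌊l ^ K⌋₊ := ⟨_, rfl⟩
  rw [← hQ] at hd
  have hWQ : FourCubes.smoothModulus w ≤ Q :=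
    hQ ▸ Nat.le_floor (hlge.1.1.trans (le_self_pow₀ hl1 (by omega)))
  have hsP : √(P : ℝ) ≤ P := by
    rw [Real.sqrt_le_left (by linarith)]
    nlinarith
  have hQ6 : (Q : ℝ) ^ 6 ≤ K₀ * (N / l) := by
    rw [mul_div_assoc', le_div_iff₀ hl0]
    calc (Q : ℝ) ^ 6 * l ≤ (l ^ K) ^ 6 * l := by
          gcongr
          exact hQ ▸ Nat.floor_le (by positivity)
      _ = l ^ (6 * K + 1) := by rw [← pow_mul, ← pow_succ, mul_comm K 6]
      _ ≤ K₀ * √(P : ℝ) := hl ▸ hpow P hP1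
      _ ≤ K₀ * N := by
          gcongr
          exact hsP.trans ((le_self_pow₀ hP1 two_ne_zero).trans hPNr)
  obtain ⟨S, hS⟩ : ∃ S, S = (Ioc 0 N).filter IsAdmissible := ⟨_, rfl⟩
  obtain ⟨G, hG⟩ : ∃ G : ℕ → ℝ, G = fun n =>
      ‖∑ q ∈ Icc 1 Q, threeTerm n q - (smoothThree n w : ℂ)‖ := ⟨_, rfl⟩
  obtain ⟨D, hD⟩ : ∃ D : ℕ → ℝ, D = fun n => threeSum Λ P n - threeSum primePart P n := ⟨_, rfl⟩
  obtain ⟨E, hE⟩ : ∃ E : ℕ → ℝ, E = fun n =>
      ‖(threeSum Λ P n : ℂ) - (tripleWeight N n : ℂ) * ∑ q ∈ Icc 1 Q, threeTerm n q‖ := ⟨_, rfl⟩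
  have hD0 : ∀ n, 0 ≤ D n := fun n => by
    simp only [hD, threeSum, ← sum_sub_distrib]
    exact sum_nonneg fun z _ => sub_nonneg.2 (mul_le_mul (primePart_le _) (mul_le_mul
      (primePart_le _) (primePart_le _) (primePart_nonneg _) vonMangoldt_nonneg)
      (mul_nonneg (primePart_nonneg _) (primePart_nonneg _)) vonMangoldt_nonneg)
  obtain ⟨Y, hY⟩ : ∃ Y : ℝ, Y = X * √(N : ℝ) := ⟨_, rfl⟩
  have hY0 : 0 < Y := by rw [hY]; positivity
  have hsub : (Ioc 0 N).filter (fun n => IsAdmissible n ∧ ¬IsThreePrimeSquares n) ⊆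
      Ioc 0 ⌊ε / 2 * N⌋₊ ∪ (S.filter (fun n => cw / 2 ≤ G n) ∪
        ((Ioc 0 N).filter (fun n => Y ≤ D n) ∪ (Ioc 0 N).filter (fun n => Y ≤ E n))) := by
    intro n hn
    simp only [mem_filter, mem_Ioc] at hn
    simp only [mem_union, mem_filter, hS, mem_Ioc]
    by_cases hsmall : n ≤ ⌊ε / 2 * N⌋₊
    · exact Or.inl ⟨hn.1.1, hsmall⟩
    by_cases hA : cw / 2 ≤ G n
    · exact Or.inr (Or.inl ⟨⟨hn.1, hn.2.1⟩, hA⟩)
    by_cases hB : Y ≤ D n
    · exact Or.inr (Or.inr (Or.inl ⟨hn.1, hB⟩))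
    refine Or.inr (Or.inr (Or.inr ⟨hn.1, ?_⟩))
    have hbig : ε / 2 * N < n := (Nat.floor_lt (by positivity)).1 (not_le.1 hsmall)
    have h6 : 6 ≤ n := by
      have h1 : 12 / ε ≤ N := (Nat.le_ceil _).trans (Nat.cast_le.2 hN.2)
      rw [div_le_iff₀ hε] at h1
      have h2 : (6 : ℝ) < n := by linarith
      exact_mod_cast h2.le
    have hJ : √(ε / 2) * √(N : ℝ) / 7776 ≤ tripleWeight N n := by
      refine le_trans ?_ (tripleWeight_lower hn.1.2 h6)
      rw [← Real.sqrt_mul (by positivity)]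
      exact div_le_div_of_nonneg_right (Real.sqrt_le_sqrt hbig.le) (by norm_num)
    obtain ⟨Z, hZ⟩ : ∃ Z, Z = ∑ q ∈ Icc 1 Q, threeTerm n q := ⟨_, rfl⟩
    have hZn : cw / 2 ≤ ‖Z‖ := by
      have h1 : cw ≤ ‖(smoothThree n w : ℂ)‖ := by
        rw [Complex.norm_real, Real.norm_eq_abs]
        exact (hcw ▸ hlow w hw3 n hn.2.1).trans (le_abs_self _)
      have h2 := norm_le_norm_add_norm_sub Z (smoothThree n w : ℂ)
      simp only [hG] at hA
      rw [← hZ] at hA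
      linarith
    rw [hE]
    simp only
    rw [← hZ, norm_sub_rev]
    refine le_trans ?_ (norm_sub_norm_le _ _)
    have hR : ‖(threeSum Λ P n : ℂ)‖ ≤ Y := by
      rw [Complex.norm_real, Real.norm_eq_abs]
      have e : D n = threeSum Λ P n := by
        simp only [hD, threeSum_primePart_eq_zero hn.2.2, sub_zero]
      rw [← e, abs_of_nonneg (hD0 n)]
      exact (not_le.1 hB).le
    have hM : 2 * Y ≤ ‖(tripleWeight N n : ℂ) * Z‖ := by
      rw [norm_mul, Complex.norm_real, Real.norm_eq_abs,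
        abs_of_nonneg (le_trans (by positivity) hJ)]
      refine le_trans (le_of_eq ?_) (mul_le_mul hJ hZn (by positivity) (le_trans (by positivity) hJ))
      rw [hY, hX]
      ring
    linarith
  refine (Nat.cast_le.2 ((card_le_card hsub).trans ((card_union_le _ _).trans (add_le_add le_rfl
    ((card_union_le _ _).trans (add_le_add le_rfl (card_union_le _ _))))))).trans ?_
  push_cast
  have hcount : ∀ (U : Finset ℕ) (F : ℕ → ℝ) (x : ℝ), 0 < x → (∀ n, 0 ≤ F n) →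
      ((U.filter fun n => x ≤ F n).card : ℝ) ≤ (∑ n ∈ U, F n) / x := by
    intro U F x hx hF
    rw [le_div_iff₀ hx]
    refine le_trans ?_ ((card_nsmul_le_sum _ _ x fun n hn => (mem_filter.1 hn).2).trans
      (sum_le_sum_of_subset_of_nonneg (filter_subset _ _) fun n _ _ => hF n))
    rw [nsmul_eq_mul]
  have hA : ((S.filter fun n => cw / 2 ≤ G n).card : ℝ) ≤ ε / 8 * N + 4 * K₀ / cw ^ 2 * (N / l) := by
    have h1 : ((S.filter fun n => cw / 2 ≤ G n).card : ℝ) ≤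
        ((S.filter fun n => (cw / 2) ^ 2 ≤ G n ^ 2).card : ℝ) :=
      Nat.cast_le.2 (card_le_card fun n hn => by
        rw [mem_filter] at hn ⊢
        exact ⟨hn.1, pow_le_pow_left₀ (by positivity) hn.2 2⟩)
    refine h1.trans ((hcount S (fun n => G n ^ 2) _ (by positivity) fun n => sq_nonneg _).trans ?_)
    rw [div_le_iff₀ (by positivity)]
    refine le_trans (by rw [hS, hG]; exact hrest w Q N hw3 hWQ) ((add_le_add le_rfl hQ6).trans ?_)
    have h2 : C₁ * ((N : ℝ) * (w : ℝ) ^ (-(1 / 2) : ℝ)) ≤ ε / 8 * N * (cw / 2) ^ 2 := by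
      have h3 := mul_le_mul_of_nonneg_right hw (mul_nonneg hN0.le (sq_nonneg (cw / 2)))
      have e : Real.log w ^ (256 : ℝ) = (Real.log w ^ (128 : ℝ)) ^ 2 := by
        rw [← Real.rpow_natCast (Real.log w ^ _) 2, ← Real.rpow_mul hlw.le]
        norm_num
      rw [e, hcw] at h3
      rw [hcw]
      refine le_trans (le_of_eq ?_) (h3.trans (le_of_eq (by ring)))
      have : Real.log w ^ (128 : ℝ) ≠ 0 := (Real.rpow_pos_of_pos hlw _).ne'
      field_simp
      ring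
    have h4 : K₀ * ((N : ℝ) / l) = 4 * K₀ / cw ^ 2 * (N / l) * (cw / 2) ^ 2 := by
      field_simp
      ring
    linarith
  have hB : (((Ioc 0 N).filter fun n => Y ≤ D n).card : ℝ) ≤ 216 * K₁ / X * (N / l) := by
    refine (hcount _ D Y hY0 hD0).trans ?_
    rw [div_le_iff₀ hY0]
    refine le_trans (le_of_eq (sum_congr rfl fun n _ => congrFun hD n))
      ((sum_threeSum_sub_le N (show 1 ≤ P by omega)).trans ?_)
    rw [← hl]
    have h1 : l * l ≤ K₁ * √(P : ℝ) := by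
      rw [← sq]
      exact hl ▸ hpow₁ P hP1
    have h2 : (P : ℝ) ^ 2 * √(P : ℝ) * l * l ≤ K₁ * (N * √(N : ℝ)) := by
      calc (P : ℝ) ^ 2 * √(P : ℝ) * l * l ≤ (P : ℝ) ^ 2 * √(P : ℝ) * (K₁ * √(P : ℝ)) := by
            rw [mul_assoc _ l l]
            gcongr
        _ = K₁ * ((P : ℝ) ^ 2 * (√(P : ℝ) * √(P : ℝ))) := by ring
        _ ≤ _ := by
            rw [Real.mul_self_sqrt (by linarith)]
            refine mul_le_mul_of_nonneg_left (mul_le_mul hPNr (Real.le_sqrt_of_sq_le hPNr)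
              (by linarith) hN0.le) hK₁.le
    rw [hY, show 216 * K₁ / X * (N / l) * (X * √(N : ℝ)) = 216 * (K₁ * (N * √(N : ℝ))) / l by
      field_simp, le_div_iff₀ hl0]
    linarith
  have hC : (((Ioc 0 N).filter fun n => Y ≤ E n).card : ℝ) ≤ C₂ / X ^ 2 * (N / l) := by
    have h1 : (((Ioc 0 N).filter fun n => Y ≤ E n).card : ℝ) ≤
        (((Ioc 0 N).filter fun n => Y ^ 2 ≤ E n ^ 2).card : ℝ) :=
      Nat.cast_le.2 (card_le_card fun n hn => by
        rw [mem_filter] at hn ⊢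
        exact ⟨hn.1, pow_le_pow_left₀ hY0.le hn.2 2⟩)
    refine h1.trans ((hcount _ (fun n => E n ^ 2) _ (by positivity) fun n => sq_nonneg _).trans ?_)
    rw [div_le_iff₀ (by positivity), hE]
    refine hd.trans (le_of_eq ?_)
    rw [hY, mul_pow, Real.sq_sqrt hN0.le]
    field_simp
  have h0 : ((Ioc 0 ⌊ε / 2 * N⌋₊).card : ℝ) ≤ ε / 2 * N := by
    rw [Nat.card_Ioc, Nat.sub_zero]
    exact Nat.floor_le (by positivity)
  have hbl : b * (N / l) ≤ ε / 4 * N := by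
    have h1 := hlge.1.2
    rw [div_le_iff₀ hε] at h1
    rw [mul_div_assoc', div_le_iff₀ hl0]
    nlinarith
  rw [hb] at hbl
  nlinarith

open Classical in
/-- The exceptions have density zero. -/
theorem tendsto_exceptions_density : Tendsto (fun N : ℕ =>
    (((Ioc 0 N).filter fun n => IsAdmissible n ∧ ¬IsThreePrimeSquares n).card : ℝ) / N)
      atTop (𝓝 0) := by
  refine tendsto_order.2 ⟨fun a ha => Eventually.of_forall fun N =>
    lt_of_lt_of_le ha (by positivity), fun a ha => ?_⟩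
  filter_upwards [eventually_exceptions_le (half_pos ha), eventually_ge_atTop 1] with N hN hN1
  have hN0 : (0 : ℝ) < N := Nat.cast_pos.2 hN1
  rw [div_lt_iff₀ hN0]
  nlinarith

end FA.HuaThreeSquares
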