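import Fermat.Agent.HuaThreeSquares.Local
import Fermat.Agent.FourCubes.Singular

/-!
# The singular series of three squares of primes

It does not converge absolutely. Its sum over the divisors of `W` is a product of local densities,
at least a power of `1 / log w` for admissible `n`; the rest of a partial sum is `O (w ^ (-1/4))` in
mean square, since `∑_{q} √q ∑_a |C_q (a) / φ q| ^ 6` converges.
-/

set_option autoImplicit false

noncomputable section

namespace FA.HuaThreeSquares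

open Finset FA.ThreePrimes FA.HuaSquares
open scoped ComplexConjugate

/-- The coefficient of a centre. -/
def triWeight (z : Σ _ : ℕ, ℕ) : ℂ := primeFactor z.1 z.2 ^ 3

theorem norm_triWeight_le_one (z : Σ _ : ℕ, ℕ) : ‖triWeight z‖ ≤ 1 := by
  rw [triWeight, norm_pow]
  exact pow_le_one₀ (norm_nonneg _) (norm_primeFactor_le_one _ _)

theorem threeTerm_eq_arcs (n : ℕ) (A : Finset ℕ) :
    ∑ q ∈ A, threeTerm n q =
      ∑ z ∈ A.sigma unitResidues, triWeight z * eAdd (-((n : ℝ) * centre z)) := by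
  rw [sum_sigma]
  refine sum_congr rfl fun q _ => sum_congr rfl fun r _ => ?_
  simp only [threeSummand, triWeight, centre, mul_div_assoc]

/-! ### The sum over the divisors of `W` -/

/-- The singular series over the divisors of `W`. -/
def smoothThree (n w : ℕ) : ℝ := ∏ p ∈ ErdosKac.primesUpTo w, localThree n p

theorem sum_threeTerm_primePow {n : ℕ} (hn : IsAdmissible n) {p : ℕ} (hp : p.Prime) {w : ℕ}
    (hw : 3 ≤ w) : ∑ l ∈ range (w + 1), threeTerm n (p ^ l) = (localThree n p : ℂ) := by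
  rw [← (localThree_spec hn hp).1]
  refine (sum_subset (range_subset_range.2 (by omega)) fun l _ hl => ?_).symm
  rw [mem_range, not_lt] at hl
  exact threeTerm_primePow_eq_zero n hp (by omega) (Or.inr hl)

theorem sum_divisors_smoothThree {n : ℕ} (hn : IsAdmissible n) {w : ℕ} (hw : 3 ≤ w) :
    ∑ q ∈ (FourCubes.smoothModulus w).divisors, threeTerm n q = (smoothThree n w : ℂ) := by
  classical
  obtain ⟨f, hf⟩ : ∃ f : ArithmeticFunction ℂ, f = ⟨threeTerm n, threeTerm_zero n⟩ := ⟨_, rfl⟩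
  have hfa : ∀ q, f q = threeTerm n q := fun q => by rw [hf]; rfl
  have hmul : ArithmeticFunction.IsMultiplicative f :=
    ⟨by rw [hfa, threeTerm_one], fun {a b} h => by rw [hfa, hfa, hfa, threeTerm_mul n h]⟩
  obtain ⟨g, hg⟩ : ∃ g : ArithmeticFunction ℂ, g = f * ↑ArithmeticFunction.zeta := ⟨_, rfl⟩
  have hga : ∀ m, g m = ∑ q ∈ m.divisors, threeTerm n q := fun m => by
    rw [hg, ArithmeticFunction.coe_mul_zeta_apply]
    exact sum_congr rfl fun q _ => hfa q
  have hgm : ArithmeticFunction.IsMultiplicative g :=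
    hg ▸ hmul.mul ArithmeticFunction.isMultiplicative_zeta.natCast
  rw [← hga, FourCubes.smoothModulus, ArithmeticFunction.IsMultiplicative.map_prod _ hgm _
    fun p hp r hr hne => ((Nat.coprime_primes (ErdosKac.mem_primesUpTo.1 hp).1
      (ErdosKac.mem_primesUpTo.1 hr).1).2 hne).pow w w, smoothThree, Complex.ofReal_prod]
  refine prod_congr rfl fun p hp => ?_
  rw [hga, Nat.sum_divisors_prime_pow (ErdosKac.mem_primesUpTo.1 hp).1,
    sum_threeTerm_primePow hn (ErdosKac.mem_primesUpTo.1 hp).1 hw]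

/-- **The lower bound.** -/
theorem exists_smoothThree_ge : ∃ c : ℝ, 0 < c ∧ ∀ w : ℕ, 3 ≤ w → ∀ n : ℕ, IsAdmissible n →
    c / Real.log w ^ (128 : ℝ) ≤ smoothThree n w := by
  obtain ⟨C, hC⟩ := ErdosKac.exists_abs_recipSum_sub_le
  obtain ⟨b, hb⟩ : ∃ b : ℕ, b = 128 := ⟨_, rfl⟩
  refine ⟨(1 / (b : ℝ) ^ 2) ^ b * Real.exp (-(128 * C)), mul_pos (pow_pos (by
    rw [hb]; positivity) _) (Real.exp_pos _), fun w hw n hn => ?_⟩
  have hb0 : (0 : ℝ) < b := by rw [hb]; norm_num
  have hc1 : 1 / (b : ℝ) ^ 2 ≤ 1 := by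
    rw [div_le_one (pow_pos hb0 2)]
    exact one_le_pow₀ (by rw [hb]; norm_num)
  have hlw : 0 < Real.log w := Real.log_pos (by exact_mod_cast (show 1 < w by omega))
  rw [smoothThree, ← prod_filter_mul_prod_filter_not (ErdosKac.primesUpTo w) (fun p => p < b)]
  have hsmall : (1 / (b : ℝ) ^ 2) ^ b ≤
      ∏ p ∈ (ErdosKac.primesUpTo w).filter (fun p => p < b), localThree n p := by
    have hcard : ((ErdosKac.primesUpTo w).filter fun p => p < b).card ≤ b :=
      (card_le_card (t := range b) fun p hp => mem_range.2 (mem_filter.1 hp).2).trans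
        (card_range b).le
    refine (pow_le_pow_of_le_one (by positivity) hc1 hcard).trans ?_
    rw [← prod_const]
    refine prod_le_prod (fun _ _ => by positivity) fun p hp => ?_
    rw [mem_filter, ErdosKac.mem_primesUpTo] at hp
    refine le_trans (one_div_le_one_div_of_le (pow_pos (Nat.cast_pos.2 hp.1.1.pos) 2) ?_)
      (localThree_spec hn hp.1.1).2.1
    exact pow_le_pow_left₀ (Nat.cast_nonneg p) (Nat.cast_le.2 hp.2.le) 2
  have hlarge : Real.exp (-(128 * C)) / Real.log w ^ (128 : ℝ) ≤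
      ∏ p ∈ (ErdosKac.primesUpTo w).filter (fun p => ¬p < b), localThree n p := by
    have h1 : ∀ p ∈ (ErdosKac.primesUpTo w).filter (fun p => ¬p < b),
        Real.exp (-(128 * (p : ℝ)⁻¹)) ≤ localThree n p := by
      intro p hp
      rw [mem_filter, ErdosKac.mem_primesUpTo, not_lt, hb] at hp
      refine le_trans ?_ ((localThree_spec hn hp.1.1).2.2 (by omega))
      obtain ⟨x, hx⟩ : ∃ x : ℝ, x = 64 / (p : ℝ) := ⟨_, rfl⟩
      have hx0 : 0 ≤ x := by rw [hx]; positivity
      have hx2 : x ≤ 1 / 2 := by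
        rw [hx, div_le_iff₀ (Nat.cast_pos.2 hp.1.1.pos)]
        have : (128 : ℝ) ≤ p := by exact_mod_cast hp.2
        linarith
      rw [show 128 * (p : ℝ)⁻¹ = 2 * x by rw [hx]; ring, ← hx, Real.exp_neg,
        inv_le_iff_one_le_mul₀' (Real.exp_pos _)]
      nlinarith [Real.add_one_le_exp (2 * x), mul_nonneg hx0 (show 0 ≤ 1 - 2 * x by linarith)]
    refine le_trans ?_ (prod_le_prod (fun _ _ => (Real.exp_pos _).le) h1)
    rw [← Real.exp_sum, Real.rpow_def_of_pos hlw, div_eq_mul_inv, ← Real.exp_neg, ← Real.exp_add,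
      sum_neg_distrib, ← mul_sum]
    refine Real.exp_le_exp.2 ?_
    have hsum : ∑ p ∈ (ErdosKac.primesUpTo w).filter (fun p => ¬p < b), (p : ℝ)⁻¹ ≤
        ErdosKac.recipSum w :=
      sum_le_sum_of_subset_of_nonneg (filter_subset _ _) fun p _ _ => by positivity
    linarith [(abs_le.1 (hC w (by omega))).2]
  rw [mul_div_assoc]
  exact mul_le_mul hsmall hlarge (by positivity) ((by positivity : (0 : ℝ) ≤ _).trans hsmall)

/-! ### The sixth powers of the local factors -/

/-- `√q ∑_a |C_q (a) / φ q| ^ 6`. -/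
def sixTerm (q : ℕ) : ℝ := √(q : ℝ) * ∑ r ∈ unitResidues q, ‖primeFactor q r‖ ^ 6

theorem sixTerm_nonneg (q : ℕ) : 0 ≤ sixTerm q :=
  mul_nonneg (Real.sqrt_nonneg _) (sum_nonneg fun _ _ => by positivity)

theorem sixTerm_one : sixTerm 1 = 1 := by
  simp [sixTerm, unitResidues, primeFactor, primeSquareSum,
    show ∀ x : ℝ, x * 0 = 0 from mul_zero]

theorem sixTerm_mul {m n : ℕ} (h : m.Coprime n) : sixTerm (m * n) = sixTerm m * sixTerm n := by
  classical
  rcases Nat.eq_zero_or_pos m with rfl | hm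
  · simp [sixTerm]
  rcases Nat.eq_zero_or_pos n with rfl | hn
  · simp [sixTerm]
  obtain ⟨hinj, himg⟩ := crtResidue_bijOn h
  rw [sixTerm, sixTerm, sixTerm, Nat.cast_mul, Real.sqrt_mul (Nat.cast_nonneg m),
    mul_mul_mul_comm, ← himg, sum_image hinj, sum_mul_sum, ← sum_product']
  congr 1
  refine sum_congr rfl fun z _ => ?_
  rw [primeFactor_crt h hm hn, norm_mul, mul_pow]

theorem sixTerm_primePow_eq_zero {p l : ℕ} (hp : p.Prime) (hl : 2 ≤ l) (h2 : p ≠ 2 ∨ 4 ≤ l) :
    sixTerm (p ^ l) = 0 := by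
  rw [sixTerm, sum_eq_zero fun r hr => ?_, mul_zero]
  rw [unitResidues, mem_filter] at hr
  rw [primeFactor, primeSquareSum_primePow hp hl h2 (a := (r : ℤ))
    (by rw [Int.cast_natCast]; exact (ZMod.isUnit_iff_coprime r _).2 hr.2.symm)]
  simp

theorem sixTerm_le (q : ℕ) : sixTerm q ≤ √(q : ℝ) * q := by
  refine mul_le_mul_of_nonneg_left ((sum_le_card_nsmul (unitResidues q) (fun r => ‖primeFactor q r‖ ^ 6) 1
    fun r _ => pow_le_one₀ (norm_nonneg _) (norm_primeFactor_le_one q r)).trans ?_)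
    (Real.sqrt_nonneg _)
  rw [card_unitResidues, nsmul_eq_mul, mul_one]
  exact Nat.cast_le.2 (Nat.totient_le q)

theorem sixTerm_prime_le {p : ℕ} (hp : p.Prime) :
    sixTerm p ≤ 1000000 * (p : ℝ) ^ (-(3 / 2) : ℝ) := by
  have hp2 : (2 : ℝ) ≤ p := by exact_mod_cast hp.two_le
  have hs : (0 : ℝ) < √(p : ℝ) := Real.sqrt_pos.2 (by linarith)
  refine (mul_le_mul_of_nonneg_left (sum_le_card_nsmul _ _ ((10 / √(p : ℝ)) ^ 6) fun r hr => ?_)
    (Real.sqrt_nonneg _)).trans ?_
  · rw [unitResidues, mem_filter] at hr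
    refine pow_le_pow_left₀ (norm_nonneg _) ?_ 6
    have h := norm_primeSquareSum_prime_le hp (a := (r : ℤ))
      (by rw [Int.cast_natCast]; exact (ZMod.isUnit_iff_coprime r _).2 hr.2.symm)
    rw [primeFactor, norm_div, Complex.norm_natCast, Nat.totient_prime hp,
      Nat.cast_sub hp.one_le, Nat.cast_one, div_le_div_iff₀ (by linarith) hs]
    have hss := Real.mul_self_sqrt (show (0 : ℝ) ≤ p by linarith)
    have h1 := mul_le_mul_of_nonneg_right h hs.le
    rw [mul_assoc, hss] at h1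
    linarith
  · rw [nsmul_eq_mul, card_unitResidues, Nat.totient_prime hp]
    have hss := Real.mul_self_sqrt (show (0 : ℝ) ≤ p by linarith)
    have e : (p : ℝ) ^ (-(3 / 2) : ℝ) = √(p : ℝ) / (p : ℝ) ^ 2 := by
      rw [Real.sqrt_eq_rpow, ← Real.rpow_natCast (p : ℝ) 2, ← Real.rpow_sub (by linarith)]
      norm_num
    rw [e, div_pow, show √(p : ℝ) ^ 6 = (p : ℝ) ^ 3 by
      calc √(p : ℝ) ^ 6 = (√(p : ℝ) * √(p : ℝ)) ^ 3 := by ring
        _ = _ := by rw [hss]]
    calc √(p : ℝ) * (((p - 1 : ℕ) : ℝ) * (10 ^ 6 / (p : ℝ) ^ 3))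
        ≤ √(p : ℝ) * ((p : ℝ) * (10 ^ 6 / (p : ℝ) ^ 3)) := by
          gcongr
          exact Nat.sub_le p 1
      _ = _ := by field_simp; ring

theorem tsum_sixTerm_primePow {p : ℕ} (hp : p.Prime) :
    Summable (fun l => ‖sixTerm (p ^ l)‖) ∧
      ∑' l, sixTerm (p ^ l) ≤ 1 + 1000200 * (p : ℝ) ^ (-(3 / 2) : ℝ) := by
  have h0 : ∀ l ∉ range 4, sixTerm (p ^ l) = 0 := fun l hl => by
    rw [mem_range] at hl
    exact sixTerm_primePow_eq_zero hp (by omega) (Or.inr (by omega))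
  refine ⟨summable_of_ne_finset_zero (s := range 4) fun l hl => by rw [h0 l hl, norm_zero], ?_⟩
  rw [tsum_eq_sum h0]
  simp only [sum_range_succ, range_zero, sum_empty, zero_add, pow_zero, pow_one, sixTerm_one]
  have h1 := sixTerm_prime_le hp
  rcases eq_or_ne p 2 with rfl | hne
  · have a2 := sixTerm_le (2 ^ 2)
    have a3 := sixTerm_le (2 ^ 3)
    norm_num at a2 a3 ⊢
    have h8 : √(8 : ℝ) ≤ 3 := by rw [Real.sqrt_le_left (by norm_num)]; norm_num
    have h4 : √(4 : ℝ) ≤ 2 := by rw [Real.sqrt_le_left (by norm_num)]; norm_num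
    have : (1 / 4 : ℝ) ≤ (2 : ℝ) ^ (-(3 / 2) : ℝ) := by
      rw [show (1 / 4 : ℝ) = (2 : ℝ) ^ (-2 : ℝ) by norm_num]
      exact Real.rpow_le_rpow_of_exponent_le one_le_two (by norm_num)
    linarith
  · rw [sixTerm_primePow_eq_zero hp le_rfl (Or.inl hne),
      sixTerm_primePow_eq_zero hp (show 2 ≤ 3 by norm_num) (Or.inl hne)]
    have : 0 ≤ (p : ℝ) ^ (-(3 / 2) : ℝ) := by positivity
    linarith

theorem summable_sixTerm : Summable sixTerm := by
  obtain ⟨Z, hZ⟩ : ∃ Z : ℝ, Z = ∑' p : ℕ, 1000200 * (p : ℝ) ^ (-(3 / 2) : ℝ) := ⟨_, rfl⟩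
  have hb : Summable fun p : ℕ => 1000200 * (p : ℝ) ^ (-(3 / 2) : ℝ) :=
    (Real.summable_nat_rpow.2 (by norm_num)).mul_left _
  refine summable_of_sum_range_le (c := Real.exp Z) sixTerm_nonneg fun n => ?_
  obtain ⟨hs, hsum⟩ := EulerProduct.summable_and_hasSum_factoredNumbers_prod_filter_prime_tsum
    sixTerm_one (fun h => sixTerm_mul h) (fun hp => (tsum_sixTerm_primePow hp).1) (range n)
  have h1 : ∑ q ∈ range n, sixTerm q ≤ ∏ p ∈ range n with p.Prime, ∑' l, sixTerm (p ^ l) := by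
    rw [← hsum.tsum_eq]
    classical
    calc ∑ q ∈ range n, sixTerm q
        = ∑ q ∈ (range n).filter (fun q => q ∈ Nat.factoredNumbers (range n)), sixTerm q := by
          refine (sum_filter_of_ne fun q hq hne => ?_).symm
          have hq0 : q ≠ 0 := fun h => hne (by simp [h, sixTerm])
          rw [mem_range] at hq
          exact Nat.mem_factoredNumbers.2 ⟨hq0, fun p hp => mem_range.2
            (lt_of_le_of_lt (Nat.le_of_mem_primeFactorsList hp) hq)⟩
      _ = ∑ q ∈ (range n).subtype (fun q => q ∈ Nat.factoredNumbers (range n)),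
            sixTerm q := (sum_subtype_eq_sum_filter _).symm
      _ ≤ _ := Summable.sum_le_tsum _ (fun i _ => sixTerm_nonneg _) hsum.summable
  refine h1.trans ?_
  calc ∏ p ∈ range n with p.Prime, ∑' l, sixTerm (p ^ l)
      ≤ ∏ p ∈ range n with p.Prime, Real.exp (1000200 * (p : ℝ) ^ (-(3 / 2) : ℝ)) :=
        prod_le_prod (fun p _ => tsum_nonneg fun l => sixTerm_nonneg _) fun p hp =>
          ((tsum_sixTerm_primePow (mem_filter.1 hp).2).2.trans
            (by linarith [Real.add_one_le_exp (1000200 * (p : ℝ) ^ (-(3 / 2) : ℝ))]))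
    _ = Real.exp (∑ p ∈ range n with p.Prime, 1000200 * (p : ℝ) ^ (-(3 / 2) : ℝ)) :=
        (Real.exp_sum _ _).symm
    _ ≤ _ := Real.exp_le_exp.2 (hZ ▸ hb.sum_le_tsum _ fun p _ => by positivity)

/-! ### The rest of the partial sum -/

/-- **The large sieve in its simplest form.** -/
theorem sum_norm_trig_sq_le {R : ℕ} {Z : Finset (Σ _ : ℕ, ℕ)} (hZ : Z ⊆ arcCentres R)
    (c : (Σ _ : ℕ, ℕ) → ℂ) (hc : ∀ z, ‖c z‖ ≤ 1) (A B : ℕ) :
    ∑ n ∈ Ioc A B, ‖∑ z ∈ Z, c z * eAdd (-((n : ℝ) * centre z))‖ ^ 2 ≤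
      ((B - A : ℕ) : ℝ) * ∑ z ∈ Z, ‖c z‖ ^ 2 + (R : ℝ) ^ 6 := by
  classical
  obtain ⟨G, hG⟩ : ∃ G : (Σ _ : ℕ, ℕ) → (Σ _ : ℕ, ℕ) → ℝ,
      G = fun z u => ‖∑ n ∈ Ioc A B, eAdd ((n : ℝ) * (centre u - centre z))‖ := ⟨_, rfl⟩
  have h1 : ∑ n ∈ Ioc A B, ‖∑ z ∈ Z, c z * eAdd (-((n : ℝ) * centre z))‖ ^ 2 ≤
      ∑ z ∈ Z, ∑ u ∈ Z, ‖c z‖ * ‖c u‖ * G z u := by
    refine (le_abs_self _).trans (le_of_eq_of_le (Complex.norm_real _).symm ?_)
    push_cast
    simp only [← Complex.mul_conj', map_sum, sum_mul_sum, map_mul, conj_eAdd, neg_neg]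
    rw [sum_comm]
    refine (norm_sum_le _ _).trans (sum_le_sum fun z _ => ?_)
    rw [sum_comm]
    refine (norm_sum_le _ _).trans (le_of_eq (sum_congr rfl fun u _ => ?_))
    rw [hG, ← Complex.norm_conj (c u), ← norm_mul, ← norm_mul, mul_sum]
    refine congrArg _ (sum_congr rfl fun n _ => ?_)
    rw [show (n : ℝ) * (centre u - centre z) = -((n : ℝ) * centre z) + (n : ℝ) * centre u by ring,
      eAdd_add]
    ring
  refine h1.trans ?_
  have h2 : ∀ z ∈ Z, ∀ u ∈ Z, ‖c z‖ * ‖c u‖ * G z u ≤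
      (if z = u then ((B - A : ℕ) : ℝ) * ‖c z‖ ^ 2 else 0) + (R : ℝ) ^ 2 := by
    intro z hz u hu
    split_ifs with h
    · subst h
      refine le_add_of_le_of_nonneg ?_ (by positivity)
      simp only [hG, sub_self]
      simp only [mul_zero, show eAdd (0 : ℝ) = 1 by simp [eAdd], sum_const, nsmul_eq_mul, mul_one,
        Complex.norm_natCast, Nat.card_Ioc]
      exact le_of_eq (by ring)
    · rw [zero_add]
      refine (mul_le_of_le_one_left (by rw [hG]; positivity) (mul_le_one₀ (hc z)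
        (norm_nonneg _) (hc u))).trans ?_
      have hd := inv_mul_le_nearDist_centre (hZ hu) (hZ hz) (Ne.symm h)
      have hR0 : (0 : ℝ) < R := Nat.cast_pos.2 (by
        have := (mem_arcCentres.1 (hZ hz)).1; omega)
      rw [hG]
      refine ((norm_geom_le _ A B).trans (clip_le_inv (by positivity) hd)).trans ?_
      rw [mul_one_div, one_div_div, sq]
      exact div_le_self (by positivity) (by norm_num)
  refine (sum_le_sum fun z hz => sum_le_sum fun u hu => h2 z hz u hu).trans ?_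
  simp only [sum_add_distrib, sum_const, nsmul_eq_mul]
  refine add_le_add (le_of_eq ?_) ?_
  · rw [mul_sum]
    refine sum_congr rfl fun z hz => ?_
    rw [sum_ite_eq, if_pos hz]
  · have hcard : (Z.card : ℝ) ≤ (R : ℝ) ^ 2 := by
      refine le_trans (Nat.cast_le.2 (card_le_card hZ)) ?_
      rw [arcCentres, card_sigma, Nat.cast_sum]
      refine (sum_le_card_nsmul _ _ (R : ℝ) fun q hq => ?_).trans (le_of_eq ?_)
      · rw [card_unitResidues]
        exact Nat.cast_le.2 ((Nat.totient_le q).trans (mem_Icc.1 hq).2)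
      · rw [Nat.card_Icc, Nat.add_sub_cancel, nsmul_eq_mul, sq]
    calc (Z.card : ℝ) * ((Z.card : ℝ) * (R : ℝ) ^ 2)
        ≤ (R : ℝ) ^ 2 * ((R : ℝ) ^ 2 * (R : ℝ) ^ 2) := by gcongr
      _ = _ := by ring

open Classical in
/-- **The rest of the partial sum is small in mean square.** -/
theorem exists_three_rest : ∃ C : ℝ, 0 < C ∧ ∀ w R N : ℕ, 3 ≤ w → FourCubes.smoothModulus w ≤ R →
    ∑ n ∈ (Ioc 0 N).filter IsAdmissible,
        ‖∑ q ∈ Icc 1 R, threeTerm n q - (smoothThree n w : ℂ)‖ ^ 2 ≤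
      C * ((N : ℝ) * (w : ℝ) ^ (-(1 / 2) : ℝ)) + (R : ℝ) ^ 6 := by
  refine ⟨∑' q, sixTerm q + 1, add_pos_of_nonneg_of_pos (tsum_nonneg sixTerm_nonneg) one_pos,
    fun w R N hw hWR => ?_⟩
  have hsub : (FourCubes.smoothModulus w).divisors ⊆ Icc 1 R := fun q hq => mem_Icc.2
    ⟨Nat.pos_of_mem_divisors hq, (Nat.divisor_le hq).trans hWR⟩
  obtain ⟨S, hS⟩ : ∃ S, S = Icc 1 R \ (FourCubes.smoothModulus w).divisors := ⟨_, rfl⟩
  refine le_trans (le_of_eq (sum_congr rfl fun n hn => ?_))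
    ((sum_le_sum_of_subset_of_nonneg (filter_subset _ _) fun _ _ _ => sq_nonneg _).trans
      ((sum_norm_trig_sq_le (R := R) (Z := S.sigma unitResidues) ?_ triWeight
        norm_triWeight_le_one 0 N).trans (add_le_add ?_ le_rfl)))
  · rw [← sum_divisors_smoothThree (mem_filter.1 hn).2 hw, ← sum_sdiff hsub, add_sub_cancel_right,
      hS, threeTerm_eq_arcs]
  · intro z hz
    rw [mem_sigma, hS, mem_sdiff] at hz
    rw [arcCentres, mem_sigma]
    exact ⟨hz.1.1, hz.2⟩
  · rw [Nat.sub_zero, mul_left_comm]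
    refine mul_le_mul_of_nonneg_left ?_ (Nat.cast_nonneg _)
    rw [sum_sigma]
    calc ∑ q ∈ S, ∑ r ∈ unitResidues q, ‖triWeight ⟨q, r⟩‖ ^ 2
        ≤ ∑ q ∈ S, sixTerm q * (w : ℝ) ^ (-(1 / 2) : ℝ) := by
          refine sum_le_sum fun q hq => ?_
          rw [hS, mem_sdiff, mem_Icc] at hq
          have hwq : w < q := by
            by_contra h
            exact hq.2 (Nat.mem_divisors.2 ⟨FourCubes.dvd_smoothModulus hq.1.1 (not_lt.1 h),
              (FourCubes.smoothModulus_pos w).ne'⟩)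
          have hw0 : (0 : ℝ) < w := Nat.cast_pos.2 (by omega)
          rw [Real.rpow_neg hw0.le, ← Real.sqrt_eq_rpow, ← div_eq_mul_inv,
            le_div_iff₀ (Real.sqrt_pos.2 hw0), sixTerm, mul_comm]
          refine mul_le_mul (Real.sqrt_le_sqrt (Nat.cast_le.2 hwq.le)) (le_of_eq ?_)
            (sum_nonneg fun _ _ => sq_nonneg _) (Real.sqrt_nonneg _)
          exact sum_congr rfl fun r _ => by rw [triWeight, norm_pow, ← pow_mul]
      _ ≤ _ := by
          rw [← sum_mul]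
          refine mul_le_mul_of_nonneg_right ?_ (by positivity)
          linarith [summable_sixTerm.sum_le_tsum S fun q _ => sixTerm_nonneg q]

end FA.HuaThreeSquares
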